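import Fermat.Agent.Cover.LaurentRes

/-!
# Cover package: power series inside Laurent series (`IsPS`) and the rescaling `w ↦ a w`
-/

set_option autoImplicit false

namespace Fermat.Agent.CoverL

variable {K : Type*} [Field K]

/-- `IsPS f` holds exactly when `f` is the image of a power series. -/
theorem isPS_iff_exists_ofPowerSeries {f : LaurentSeries K} :
    IsPS f ↔ ∃ g : PowerSeries K, f = HahnSeries.ofPowerSeries ℤ K g := by
  constructor
  · intro hf
    refine ⟨PowerSeries.mk fun n => f.coeff n, ?_⟩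
    ext n
    rw [PowerSeries.coeff_coe]
    split_ifs with h
    · exact hf n h
    · rw [PowerSeries.coeff_mk]
      congr 1
      omega
  · rintro ⟨g, rfl⟩ n hn
    rw [PowerSeries.coeff_coe, if_pos hn]

theorem IsPS.add {f g : LaurentSeries K} (hf : IsPS f) (hg : IsPS g) : IsPS (f + g) := by
  intro n hn
  rw [HahnSeries.coeff_add, hf n hn, hg n hn, add_zero]

theorem IsPS.neg {f : LaurentSeries K} (hf : IsPS f) : IsPS (-f) := by
  intro n hn
  rw [HahnSeries.coeff_neg, hf n hn, neg_zero]

theorem IsPS.mul {f g : LaurentSeries K} (hf : IsPS f) (hg : IsPS g) : IsPS (f * g) := by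
  obtain ⟨f', rfl⟩ := isPS_iff_exists_ofPowerSeries.1 hf
  obtain ⟨g', rfl⟩ := isPS_iff_exists_ofPowerSeries.1 hg
  exact isPS_iff_exists_ofPowerSeries.2 ⟨f' * g', (map_mul _ _ _).symm⟩

theorem IsPS.pow {f : LaurentSeries K} (hf : IsPS f) (n : ℕ) : IsPS (f ^ n) := by
  obtain ⟨f', rfl⟩ := isPS_iff_exists_ofPowerSeries.1 hf
  exact isPS_iff_exists_ofPowerSeries.2 ⟨f' ^ n, (map_pow _ _ _).symm⟩

theorem isPS_C (c : K) : IsPS (HahnSeries.C c : LaurentSeries K) := by
  intro n hn
  rw [HahnSeries.C_apply, HahnSeries.coeff_single_of_ne hn.ne]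

theorem isPS_algebraMap (c : K) : IsPS (algebraMap K (LaurentSeries K) c) := by
  rw [LaurentSeries.algebraMap_apply]
  exact isPS_C c

theorem isPS_zero : IsPS (0 : LaurentSeries K) := by
  intro n _
  exact HahnSeries.coeff_zero

theorem isPS_one : IsPS (1 : LaurentSeries K) := by
  rw [← HahnSeries.C_one]
  exact isPS_C 1

theorem isPS_of_order_nonneg {f : LaurentSeries K} (h : 0 ≤ f.order) : IsPS f := by
  intro n hn
  exact HahnSeries.coeff_eq_zero_of_lt_order (lt_of_lt_of_le hn h)

theorem IsPS.order_nonneg {f : LaurentSeries K} (hf : IsPS f) : 0 ≤ f.order := by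
  by_cases h0 : f = 0
  · rw [h0, HahnSeries.order_zero]
  · by_contra h
    exact h0 (HahnSeries.coeff_order_eq_zero.1 (hf _ (not_le.1 h)))

theorem isPS_iff_order_nonneg {f : LaurentSeries K} : IsPS f ↔ 0 ≤ f.order :=
  ⟨IsPS.order_nonneg, isPS_of_order_nonneg⟩

theorem IsPS.lderiv {f : LaurentSeries K} (hf : IsPS f) : IsPS (lderiv f) := by
  intro n hn
  rw [coeff_lderiv]
  rcases eq_or_lt_of_le (show n + 1 ≤ 0 by omega) with h | h
  · have h1 : (n : K) + 1 = 0 := by exact_mod_cast congrArg (Int.cast : ℤ → K) h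
    rw [h1, zero_mul]
  · rw [hf _ h, mul_zero]

/-- a power series with nonzero constant term is invertible among power series -/
theorem IsPS.inv {f : LaurentSeries K} (hf : IsPS f) (h0 : f.coeff 0 ≠ 0) : IsPS f⁻¹ := by
  obtain ⟨g, rfl⟩ := isPS_iff_exists_ofPowerSeries.1 hf
  have hg : PowerSeries.constantCoeff g ≠ 0 := by
    rw [PowerSeries.coeff_coe, if_neg (lt_irrefl 0)] at h0
    simpa using h0
  refine isPS_iff_exists_ofPowerSeries.2 ⟨g⁻¹, ?_⟩
  exact inv_eq_of_mul_eq_one_right
    (by rw [← map_mul, PowerSeries.mul_inv_cancel _ hg, map_one])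

theorem IsPS.lres_eq_zero {f : LaurentSeries K} (hf : IsPS f) : lres f = 0 :=
  hf (-1) (by norm_num)

/-- finite sums and products of power series are power series -/
theorem isPS_finset_sum {ι : Type*} (s : Finset ι) (f : ι → LaurentSeries K)
    (h : ∀ i ∈ s, IsPS (f i)) : IsPS (∑ i ∈ s, f i) :=
  Finset.sum_induction f IsPS (fun _ _ => IsPS.add) isPS_zero h

theorem isPS_finset_prod {ι : Type*} (s : Finset ι) (f : ι → LaurentSeries K)
    (h : ∀ i ∈ s, IsPS (f i)) : IsPS (∏ i ∈ s, f i) :=
  Finset.prod_induction f IsPS (fun _ _ => IsPS.mul) isPS_one h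

/-- the rescaled coefficient function has support bounded below. -/
theorem lrescale_bddBelow (a : Kˣ) (f : LaurentSeries K) :
    BddBelow (Function.support fun n : ℤ => ((a : Kˣ) : K) ^ n * f.coeff n) := by
  refine ⟨f.order, fun n hn => ?_⟩
  by_contra h
  exact hn (by
    show ((a : Kˣ) : K) ^ n * f.coeff n = 0
    rw [HahnSeries.coeff_eq_zero_of_lt_order (not_le.1 h), mul_zero])

/-- the underlying function of `lrescale`. -/
noncomputable def lrescaleFun (a : Kˣ) (f : LaurentSeries K) : LaurentSeries K :=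
  HahnSeries.ofSuppBddBelow (fun n : ℤ => ((a : Kˣ) : K) ^ n * f.coeff n) (lrescale_bddBelow a f)

theorem coeff_lrescaleFun (a : Kˣ) (f : LaurentSeries K) (n : ℤ) :
    (lrescaleFun a f).coeff n = ((a : Kˣ) : K) ^ n * f.coeff n := rfl

theorem support_lrescaleFun (a : Kˣ) (f : LaurentSeries K) :
    (lrescaleFun a f).support = f.support := by
  ext n
  rw [HahnSeries.mem_support, HahnSeries.mem_support, coeff_lrescaleFun]
  exact ⟨fun h => right_ne_zero_of_mul h, fun h => mul_ne_zero (zpow_ne_zero _ a.ne_zero) h⟩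

theorem lrescaleFun_mul (a : Kˣ) (f g : LaurentSeries K) :
    lrescaleFun a (f * g) = lrescaleFun a f * lrescaleFun a g := by
  ext n
  rw [coeff_lrescaleFun, HahnSeries.coeff_mul, HahnSeries.coeff_mul, Finset.mul_sum]
  have key : Finset.antidiagonal (lrescaleFun a f).isPWO_support
      (lrescaleFun a g).isPWO_support n =
      Finset.antidiagonal f.isPWO_support g.isPWO_support n := by
    ext ij
    simp only [Finset.mem_antidiagonal, support_lrescaleFun]
  rw [key]
  refine Finset.sum_congr rfl fun ij hij => ?_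
  rw [Finset.mem_antidiagonal] at hij
  rw [coeff_lrescaleFun, coeff_lrescaleFun, ← hij.2.2, zpow_add₀ a.ne_zero]
  ring

/-- the substitution `w ↦ a w`. -/
noncomputable def lrescale (a : Kˣ) : LaurentSeries K →ₐ[K] LaurentSeries K where
  toFun := lrescaleFun a
  map_one' := by
    ext n
    rw [coeff_lrescaleFun, HahnSeries.coeff_one]
    split_ifs with h
    · rw [h, zpow_zero, mul_one]
    · rw [mul_zero]
  map_mul' := lrescaleFun_mul a
  map_zero' := by
    ext n
    rw [coeff_lrescaleFun, HahnSeries.coeff_zero, mul_zero]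
  map_add' f g := by
    ext n
    rw [HahnSeries.coeff_add, coeff_lrescaleFun, coeff_lrescaleFun, coeff_lrescaleFun,
      HahnSeries.coeff_add, mul_add]
  commutes' c := by
    rw [LaurentSeries.algebraMap_apply]
    ext n
    rw [coeff_lrescaleFun, HahnSeries.C_apply, HahnSeries.coeff_single]
    split_ifs with h
    · rw [h, zpow_zero, one_mul]
    · rw [mul_zero]

theorem coeff_lrescale (a : Kˣ) (f : LaurentSeries K) (n : ℤ) :
    (lrescale a f).coeff n = ((a : Kˣ) : K) ^ n * f.coeff n :=
  rfl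

theorem lderiv_lrescale (a : Kˣ) (f : LaurentSeries K) :
    lderiv (lrescale a f) = ((a : Kˣ) : K) • lrescale a (lderiv f) := by
  ext n
  rw [coeff_lderiv, coeff_lrescale, HahnSeries.coeff_smul, coeff_lrescale, coeff_lderiv,
    zpow_add₀ a.ne_zero, zpow_one, smul_eq_mul]
  ring

theorem lres_lrescale (a : Kˣ) (f : LaurentSeries K) :
    lres (lrescale a f) = ((a⁻¹ : Kˣ) : K) * lres f := by
  unfold lres
  rw [coeff_lrescale, zpow_neg_one, Units.val_inv_eq_inv_val]

end Fermat.Agent.CoverL
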