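import Fermat.Agent.Cover.Group

/-!
# Cover package: the subfield `K(j)` and its expansions

`j` is transcendental over `K`; elements of `K⟮j⟯` are rational functions of `j`; their
expansions `T P Y` have order `d P · ord_P(Y)`.  Also a partial-fractions induction principle.
-/

set_option autoImplicit false

open scoped IntermediateField

namespace Fermat.Agent.CoverL

namespace CoverDatum

variable {K : Type*} [Field K] {𝔉 : Type*} [Field 𝔉] [Algebra K 𝔉] {Γ : Type*} [Group Γ]
  (D : CoverDatum K 𝔉 Γ)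

/-- the expansion of a constant is the constant series -/
theorem rat_T_algebraMap (P : OnePoint K) (c : K) :
    D.T P (algebraMap K 𝔉 c) = HahnSeries.C c := by
  rw [AlgHom.commutes, LaurentSeries.algebraMap_apply]

theorem rat_T_ne_zero (P : OnePoint K) {x : 𝔉} (hx : x ≠ 0) : D.T P x ≠ 0 :=
  (map_ne_zero_iff _ (D.T_injective P)).mpr hx

theorem rat_order_T_algebraMap (P : OnePoint K) (c : K) :
    (D.T P (algebraMap K 𝔉 c)).order = 0 := by
  rw [D.rat_T_algebraMap, HahnSeries.order_C]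

theorem j_ne_algebraMap (c : K) : D.j ≠ algebraMap K 𝔉 c := by
  intro h
  have h1 := D.order_T_j_infty
  rw [h, D.rat_order_T_algebraMap] at h1
  have := D.d_pos OnePoint.infty
  omega

theorem j_sub_ne_zero (c : K) : D.j - algebraMap K 𝔉 c ≠ 0 :=
  sub_ne_zero.mpr (D.j_ne_algebraMap c)

/-- recentring `j - c` at `c'` -/
theorem rat_T_j_sub_eq (c c' : K) :
    D.T (c' : OnePoint K) (D.j - algebraMap K 𝔉 c)
      = D.T (c' : OnePoint K) (D.j - algebraMap K 𝔉 c') + HahnSeries.C (c' - c) := by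
  rw [← D.rat_T_algebraMap (c' : OnePoint K), ← map_add]
  congr 1
  rw [map_sub]
  ring

/-- the constant coefficient of `T c' (j - c)` is `c' - c` (auxiliary form) -/
theorem rat_coeff_zero_T_j_sub_aux (c c' : K) :
    (D.T (c' : OnePoint K) (D.j - algebraMap K 𝔉 c)).coeff 0 = c' - c := by
  rw [D.rat_T_j_sub_eq, HahnSeries.coeff_add, HahnSeries.coeff_eq_zero_of_lt_order, zero_add]
  · simp
  · rw [D.order_T_j_sub c']
    exact_mod_cast D.d_pos _

/-- at a finite point `c' ≠ c` the function `j - c` is a unit -/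
theorem order_T_j_sub_of_ne (c c' : K) (h : c' ≠ c) :
    (D.T (c' : OnePoint K) (D.j - algebraMap K 𝔉 c)).order = 0 := by
  have h0 : (D.T (c' : OnePoint K) (D.j - algebraMap K 𝔉 c)).coeff 0 ≠ 0 := by
    rw [D.rat_coeff_zero_T_j_sub_aux]
    exact sub_ne_zero.mpr h
  refine le_antisymm (HahnSeries.order_le_of_coeff_ne_zero h0) ?_
  have h1 : D.T (c' : OnePoint K) (D.j - algebraMap K 𝔉 c) ≠ 0 := D.rat_T_ne_zero _ (D.j_sub_ne_zero c)
  rw [D.rat_T_j_sub_eq] at h1 ⊢
  refine le_trans ?_ (HahnSeries.min_order_le_order_add h1)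
  rw [D.order_T_j_sub c', HahnSeries.order_C]
  exact le_min (by positivity) le_rfl

/-- the constant coefficient of `T c' (j - c)` is `c' - c` -/
theorem coeff_zero_T_j_sub (c c' : K) :
    (D.T (c' : OnePoint K) (D.j - algebraMap K 𝔉 c)).coeff 0 = c' - c :=
  D.rat_coeff_zero_T_j_sub_aux c c'

theorem order_T_infty_j_sub (c : K) :
    (D.T OnePoint.infty (D.j - algebraMap K 𝔉 c)).order = -(D.d OnePoint.infty : ℤ) := by
  have hd := D.d_pos OnePoint.infty
  have hj := D.order_T_j_infty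
  have hne : D.T OnePoint.infty D.j ≠ 0 := by
    intro h
    rw [h, HahnSeries.order_zero] at hj
    omega
  have hc : (D.T OnePoint.infty (D.j - algebraMap K 𝔉 c)).coeff (-(D.d OnePoint.infty : ℤ))
      ≠ 0 := by
    rw [map_sub, D.rat_T_algebraMap, HahnSeries.coeff_sub, HahnSeries.C_apply,
      HahnSeries.coeff_single_of_ne (by omega), sub_zero, ← hj]
    exact HahnSeries.coeff_order_eq_zero.not.mpr hne
  refine le_antisymm (HahnSeries.order_le_of_coeff_ne_zero hc) ?_
  have h1 : D.T OnePoint.infty (D.j - algebraMap K 𝔉 c) ≠ 0 := D.rat_T_ne_zero _ (D.j_sub_ne_zero c)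
  have h2 : D.T OnePoint.infty (D.j - algebraMap K 𝔉 c)
      = D.T OnePoint.infty D.j + HahnSeries.C (-c) := by
    rw [← D.rat_T_algebraMap OnePoint.infty, ← map_add, map_neg, sub_eq_add_neg]
  rw [h2] at h1 ⊢
  refine le_trans ?_ (HahnSeries.min_order_le_order_add h1)
  rw [hj, HahnSeries.order_C]
  exact le_min le_rfl (by omega)

theorem rat_order_T_mul (P : OnePoint K) {x y : 𝔉} (hx : x ≠ 0) (hy : y ≠ 0) :
    (D.T P (x * y)).order = (D.T P x).order + (D.T P y).order := by
  rw [map_mul, HahnSeries.order_mul (D.rat_T_ne_zero P hx) (D.rat_T_ne_zero P hy)]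

theorem rat_order_T_div (P : OnePoint K) {x y : 𝔉} (hx : x ≠ 0) (hy : y ≠ 0) :
    (D.T P (x / y)).order = (D.T P x).order - (D.T P y).order := by
  have h := D.rat_order_T_mul P (div_ne_zero hx hy) hy
  rw [div_mul_cancel₀ x hy] at h
  omega

theorem rat_prod_j_sub_ne_zero (m : Multiset K) :
    (m.map fun a => D.j - algebraMap K 𝔉 a).prod ≠ 0 := by
  apply Multiset.prod_ne_zero
  simp [sub_eq_zero, D.j_ne_algebraMap]

theorem rat_order_T_prod_infty (m : Multiset K) :
    (D.T OnePoint.infty (m.map fun a => D.j - algebraMap K 𝔉 a).prod).order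
      = -((D.d OnePoint.infty : ℤ) * m.card) := by
  induction m using Multiset.induction_on with
  | empty => simp [HahnSeries.order_one]
  | cons a m ih =>
    rw [Multiset.map_cons, Multiset.prod_cons,
      D.rat_order_T_mul _ (D.j_sub_ne_zero a) (D.rat_prod_j_sub_ne_zero m), ih, D.order_T_infty_j_sub,
      Multiset.card_cons]
    push_cast
    ring

theorem rat_order_T_prod_coe [DecidableEq K] (c : K) (m : Multiset K) :
    (D.T (c : OnePoint K) (m.map fun a => D.j - algebraMap K 𝔉 a).prod).order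
      = (D.d (c : OnePoint K) : ℤ) * m.count c := by
  induction m using Multiset.induction_on with
  | empty => simp [HahnSeries.order_one]
  | cons a m ih =>
    rw [Multiset.map_cons, Multiset.prod_cons,
      D.rat_order_T_mul _ (D.j_sub_ne_zero a) (D.rat_prod_j_sub_ne_zero m), ih, Multiset.count_cons]
    split_ifs with h
    · subst h
      rw [D.order_T_j_sub]
      push_cast
      ring
    · rw [D.order_T_j_sub_of_ne a c h]
      simp

/-- the order at infinity of a quotient of products of linear factors -/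
theorem rat_order_T_infty_quot {u : K} (hu : u ≠ 0) (m n : Multiset K) :
    (D.T OnePoint.infty (algebraMap K 𝔉 u * (m.map fun a => D.j - algebraMap K 𝔉 a).prod /
      (n.map fun a => D.j - algebraMap K 𝔉 a).prod)).order
      = -((D.d OnePoint.infty : ℤ) * ((m.card : ℤ) - n.card)) := by
  have hu' : algebraMap K 𝔉 u ≠ 0 := by simpa using hu
  rw [D.rat_order_T_div _ (mul_ne_zero hu' (D.rat_prod_j_sub_ne_zero m)) (D.rat_prod_j_sub_ne_zero n),
    D.rat_order_T_mul _ hu' (D.rat_prod_j_sub_ne_zero m), D.rat_order_T_algebraMap, D.rat_order_T_prod_infty,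
    D.rat_order_T_prod_infty]
  ring

/-- the order at a finite point of a quotient of products of linear factors -/
theorem rat_order_T_coe_quot [DecidableEq K] (c : K) {u : K} (hu : u ≠ 0) (m n : Multiset K) :
    (D.T (c : OnePoint K) (algebraMap K 𝔉 u * (m.map fun a => D.j - algebraMap K 𝔉 a).prod /
      (n.map fun a => D.j - algebraMap K 𝔉 a).prod)).order
      = (D.d (c : OnePoint K) : ℤ) * ((m.count c : ℤ) - n.count c) := by
  have hu' : algebraMap K 𝔉 u ≠ 0 := by simpa using hu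
  rw [D.rat_order_T_div _ (mul_ne_zero hu' (D.rat_prod_j_sub_ne_zero m)) (D.rat_prod_j_sub_ne_zero n),
    D.rat_order_T_mul _ hu' (D.rat_prod_j_sub_ne_zero m), D.rat_order_T_algebraMap, D.rat_order_T_prod_coe,
    D.rat_order_T_prod_coe]
  ring

/-- the `K`-span of the powers of `j` and of the `(j - a)⁻¹` -/
def pfSpan : Submodule K 𝔉 :=
  Submodule.span K (Set.range (fun n : ℕ => D.j ^ n) ∪
    Set.range (fun q : K × ℕ => (D.j - algebraMap K 𝔉 q.1)⁻¹ ^ q.2))

theorem pow_mem_pfSpan (n : ℕ) : D.j ^ n ∈ D.pfSpan :=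
  Submodule.subset_span (Or.inl ⟨n, rfl⟩)

theorem inv_pow_mem_pfSpan (a : K) (k : ℕ) : (D.j - algebraMap K 𝔉 a)⁻¹ ^ k ∈ D.pfSpan :=
  Submodule.subset_span (Or.inr ⟨(a, k), rfl⟩)

theorem mul_mem_pfSpan_of (z : 𝔉) (h1 : ∀ n : ℕ, z * D.j ^ n ∈ D.pfSpan)
    (h2 : ∀ (a : K) (k : ℕ), z * (D.j - algebraMap K 𝔉 a)⁻¹ ^ k ∈ D.pfSpan)
    {x : 𝔉} (hx : x ∈ D.pfSpan) : z * x ∈ D.pfSpan := by
  have hle : D.pfSpan ≤ D.pfSpan.comap (LinearMap.mulLeft K z) := by
    refine Submodule.span_le.mpr ?_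
    rintro _ (⟨n, rfl⟩ | ⟨⟨a, k⟩, rfl⟩)
    · exact h1 n
    · exact h2 a k
  exact hle hx

theorem j_mul_mem_pfSpan {x : 𝔉} (hx : x ∈ D.pfSpan) : D.j * x ∈ D.pfSpan := by
  refine D.mul_mem_pfSpan_of _ (fun n => ?_) (fun a k => ?_) hx
  · rw [← pow_succ']
    exact D.pow_mem_pfSpan _
  · cases k with
    | zero => simpa using D.pow_mem_pfSpan 1
    | succ k =>
      have : D.j * (D.j - algebraMap K 𝔉 a)⁻¹ ^ (k + 1)
          = (D.j - algebraMap K 𝔉 a)⁻¹ ^ k + a • (D.j - algebraMap K 𝔉 a)⁻¹ ^ (k + 1) := by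
        have ht : (D.j - algebraMap K 𝔉 a) * (D.j - algebraMap K 𝔉 a)⁻¹ = 1 :=
          mul_inv_cancel₀ (D.j_sub_ne_zero a)
        rw [Algebra.smul_def]
        generalize (D.j - algebraMap K 𝔉 a)⁻¹ = t at ht ⊢
        linear_combination t ^ k * ht
      rw [this]
      exact add_mem (D.inv_pow_mem_pfSpan a k)
        (Submodule.smul_mem _ _ (D.inv_pow_mem_pfSpan a (k + 1)))

theorem inv_mul_mem_pfSpan (a : K) {x : 𝔉} (hx : x ∈ D.pfSpan) :
    (D.j - algebraMap K 𝔉 a)⁻¹ * x ∈ D.pfSpan := by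
  have ht : (D.j - algebraMap K 𝔉 a) * (D.j - algebraMap K 𝔉 a)⁻¹ = 1 :=
    mul_inv_cancel₀ (D.j_sub_ne_zero a)
  refine D.mul_mem_pfSpan_of _ (fun n => ?_) (fun b k => ?_) hx
  · induction n with
    | zero => simpa using D.inv_pow_mem_pfSpan a 1
    | succ n ih =>
      have : (D.j - algebraMap K 𝔉 a)⁻¹ * D.j ^ (n + 1)
          = D.j ^ n + a • ((D.j - algebraMap K 𝔉 a)⁻¹ * D.j ^ n) := by
        rw [Algebra.smul_def]
        generalize (D.j - algebraMap K 𝔉 a)⁻¹ = t at ht ⊢
        linear_combination D.j ^ n * ht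
      rw [this]
      exact add_mem (D.pow_mem_pfSpan n) (Submodule.smul_mem _ _ ih)
  · by_cases hab : a = b
    · subst hab
      rw [← pow_succ']
      exact D.inv_pow_mem_pfSpan a (k + 1)
    · have hs : (D.j - algebraMap K 𝔉 b) * (D.j - algebraMap K 𝔉 b)⁻¹ = 1 :=
        mul_inv_cancel₀ (D.j_sub_ne_zero b)
      have hw : (algebraMap K 𝔉 a - algebraMap K 𝔉 b) *
          (algebraMap K 𝔉 a - algebraMap K 𝔉 b)⁻¹ = 1 :=
        mul_inv_cancel₀ (sub_ne_zero.mpr ((algebraMap K 𝔉).injective.ne hab))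
      induction k with
      | zero => simpa using D.inv_pow_mem_pfSpan a 1
      | succ k ih =>
        have : (D.j - algebraMap K 𝔉 a)⁻¹ * (D.j - algebraMap K 𝔉 b)⁻¹ ^ (k + 1)
            = (a - b)⁻¹ • ((D.j - algebraMap K 𝔉 a)⁻¹ * (D.j - algebraMap K 𝔉 b)⁻¹ ^ k
                - (D.j - algebraMap K 𝔉 b)⁻¹ ^ (k + 1)) := by
          rw [Algebra.smul_def, map_inv₀, map_sub]
          generalize (D.j - algebraMap K 𝔉 a)⁻¹ = t at ht ⊢
          generalize (D.j - algebraMap K 𝔉 b)⁻¹ = s at hs ⊢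
          generalize (algebraMap K 𝔉 a - algebraMap K 𝔉 b)⁻¹ = w at hw ⊢
          linear_combination (-t * s * s ^ k) * hw + (w * t * s ^ k) * hs - (w * s * s ^ k) * ht
        rw [this]
        exact Submodule.smul_mem _ _ (sub_mem ih (D.inv_pow_mem_pfSpan b (k + 1)))

section AlgClosed

variable [IsAlgClosed K]

theorem transcendental_j : Transcendental K D.j := by
  intro halg
  have hint : IsIntegral K D.j := halg.isIntegral
  have hdeg := IsAlgClosed.degree_eq_one_of_irreducible K (minpoly.irreducible hint)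
  obtain ⟨c, hc⟩ := minpoly.mem_range_of_degree_eq_one K D.j hdeg
  exact D.j_ne_algebraMap c hc.symm

/-- a polynomial in `j` is a constant times a product of linear factors -/
theorem rat_aeval_j_eq (r : Polynomial K) :
    Polynomial.aeval D.j r
      = algebraMap K 𝔉 r.leadingCoeff * (r.roots.map fun a => D.j - algebraMap K 𝔉 a).prod := by
  conv_lhs => rw [(IsAlgClosed.splits r).eq_prod_roots]
  rw [map_mul, Polynomial.aeval_C, map_multiset_prod, Multiset.map_map]
  congr 3
  funext a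
  simp

/-- a nonzero rational function of `j` is a constant times a quotient of products of linear
factors -/
theorem rat_exists_eq_prod_div_prod {Y : 𝔉} (hY : Y ∈ K⟮D.j⟯) (h0 : Y ≠ 0) :
    ∃ (u : K) (m n : Multiset K), u ≠ 0 ∧
      Y = algebraMap K 𝔉 u * (m.map fun a => D.j - algebraMap K 𝔉 a).prod /
        (n.map fun a => D.j - algebraMap K 𝔉 a).prod := by
  obtain ⟨r, s, rfl⟩ := (IntermediateField.mem_adjoin_simple_iff K Y).mp hY
  have hr : r ≠ 0 := by
    rintro rfl
    simp at h0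
  have hs : s ≠ 0 := by
    rintro rfl
    simp at h0
  have hs' : algebraMap K 𝔉 s.leadingCoeff ≠ 0 := by
    simpa using hs
  refine ⟨r.leadingCoeff / s.leadingCoeff, r.roots, s.roots,
    div_ne_zero (Polynomial.leadingCoeff_ne_zero.mpr hr) (Polynomial.leadingCoeff_ne_zero.mpr hs),
    ?_⟩
  rw [D.rat_aeval_j_eq r, D.rat_aeval_j_eq s, map_div₀]
  have := D.rat_prod_j_sub_ne_zero s.roots
  field_simp

/-- a nonzero rational function of `j` has only finitely many zeros and poles -/
theorem finite_setOf_order_T_ne_zero {Y : 𝔉} (hY : Y ∈ K⟮D.j⟯) (h0 : Y ≠ 0) :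
    {P : OnePoint K | (D.T P Y).order ≠ 0}.Finite := by
  classical
  obtain ⟨u, m, n, hu, rfl⟩ := D.rat_exists_eq_prod_div_prod hY h0
  refine Set.Finite.subset ((Set.finite_singleton OnePoint.infty).union
    (((m.toFinset ∪ n.toFinset : Finset K).finite_toSet).image ((↑) : K → OnePoint K))) ?_
  intro P hP
  induction P using OnePoint.rec with
  | infty => exact Or.inl rfl
  | coe c =>
    refine Or.inr ⟨c, ?_, rfl⟩
    by_contra hc
    simp only [Finset.coe_union, Set.mem_union, Finset.mem_coe, Multiset.mem_toFinset,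
      not_or] at hc
    apply hP
    rw [D.rat_order_T_coe_quot c hu, Multiset.count_eq_zero_of_notMem hc.1,
      Multiset.count_eq_zero_of_notMem hc.2]
    simp

/-- a rational function of `j` without poles is constant -/
theorem exists_eq_algebraMap_of_order_T_nonneg {Y : 𝔉} (hY : Y ∈ K⟮D.j⟯)
    (h : ∀ P : OnePoint K, 0 ≤ (D.T P Y).order) : ∃ c : K, Y = algebraMap K 𝔉 c := by
  classical
  by_cases h0 : Y = 0
  · exact ⟨0, by simp [h0]⟩
  obtain ⟨u, m, n, hu, rfl⟩ := D.rat_exists_eq_prod_div_prod hY h0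
  have hle : n ≤ m := by
    rw [Multiset.le_iff_count]
    intro c
    have h1 := h c
    rw [D.rat_order_T_coe_quot c hu] at h1
    have hd := D.d_pos c
    by_contra hlt
    rw [not_le] at hlt
    have : (D.d (c : OnePoint K) : ℤ) * ((m.count c : ℤ) - n.count c) < 0 :=
      mul_neg_of_pos_of_neg (by exact_mod_cast hd) (by omega)
    omega
  obtain ⟨k, rfl⟩ := Multiset.le_iff_exists_add.mp hle
  have hk : k = 0 := by
    have h1 := h OnePoint.infty
    rw [D.rat_order_T_infty_quot hu, Multiset.card_add] at h1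
    have hd := D.d_pos OnePoint.infty
    rw [← Multiset.card_eq_zero]
    by_contra hk
    have : 0 < (D.d OnePoint.infty : ℤ) * (((n.card + k.card : ℕ) : ℤ) - n.card) :=
      mul_pos (by exact_mod_cast hd) (by push_cast; omega)
    omega
  subst hk
  refine ⟨u, ?_⟩
  rw [add_zero, mul_div_assoc, div_self (D.rat_prod_j_sub_ne_zero n), mul_one]

theorem mem_pfSpan {Y : 𝔉} (hY : Y ∈ K⟮D.j⟯) : Y ∈ D.pfSpan := by
  by_cases h0 : Y = 0
  · rw [h0]
    exact zero_mem _
  obtain ⟨u, m, n, hu, rfl⟩ := D.rat_exists_eq_prod_div_prod hY h0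
  have h1 : ∀ m : Multiset K, (m.map fun a => D.j - algebraMap K 𝔉 a).prod ∈ D.pfSpan := by
    intro m
    induction m using Multiset.induction_on with
    | empty => simpa using D.pow_mem_pfSpan 0
    | cons a m ih =>
      rw [Multiset.map_cons, Multiset.prod_cons, sub_mul, ← Algebra.smul_def]
      exact sub_mem (D.j_mul_mem_pfSpan ih) (Submodule.smul_mem _ _ ih)
  have h2 : ∀ n : Multiset K, ∀ x ∈ D.pfSpan,
      x / (n.map fun a => D.j - algebraMap K 𝔉 a).prod ∈ D.pfSpan := by
    intro n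
    induction n using Multiset.induction_on with
    | empty =>
      intro x hx
      simpa using hx
    | cons a n ih =>
      intro x hx
      rw [Multiset.map_cons, Multiset.prod_cons, div_mul_eq_div_div_swap, div_eq_inv_mul]
      exact D.inv_mul_mem_pfSpan a (ih x hx)
  rw [mul_div_assoc, ← Algebra.smul_def]
  exact Submodule.smul_mem _ _ (h2 n _ (h1 m))

/-- partial fractions: `K(j)` is spanned over `K` by the powers `j ^ n` and the
`(j - a)⁻¹ ^ k`, `k ≥ 1`. -/
theorem adjoin_j_induction (p : 𝔉 → Prop) (h_add : ∀ a b : 𝔉, p a → p b → p (a + b))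
    (h_smul : ∀ (c : K) (a : 𝔉), p a → p (c • a))
    (h_pow : ∀ n : ℕ, p (D.j ^ n))
    (h_inv : ∀ (a : K) (k : ℕ), 0 < k → p ((D.j - algebraMap K 𝔉 a)⁻¹ ^ k))
    {Y : 𝔉} (hY : Y ∈ K⟮D.j⟯) : p Y := by
  have h := D.mem_pfSpan hY
  clear hY
  induction h using Submodule.span_induction with
  | mem x hx =>
    rcases hx with ⟨n, rfl⟩ | ⟨⟨a, k⟩, rfl⟩
    · exact h_pow n
    · rcases Nat.eq_zero_or_pos k with rfl | hk
      · simpa using h_pow 0
      · exact h_inv a k hk
  | zero => simpa using h_smul 0 _ (h_pow 0)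
  | add x y _ _ hx hy => exact h_add x y hx hy
  | smul c x _ hx => exact h_smul c x hx

end AlgClosed

end CoverDatum

end Fermat.Agent.CoverL
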