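import Fermat.Agent.Cover.Order
import Fermat.Agent.Cover.Rational
import Fermat.Agent.Cover.LaurentPS

/-!
# Cover package: trace and characteristic polynomial over `K(j)`; finiteness of supports and
"no poles ⇒ constant"
-/

set_option autoImplicit false

open scoped IntermediateField

namespace Fermat.Agent.CoverL

section LaurentAux

variable {K : Type*} [Field K]

/-- products of polynomials with power series coefficients have power series coefficients -/
theorem isPS_polyCoeff_mul {p q : Polynomial (LaurentSeries K)} (hp : ∀ i, IsPS (p.coeff i))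
    (hq : ∀ i, IsPS (q.coeff i)) (i : ℕ) : IsPS ((p * q).coeff i) := by
  rw [Polynomial.coeff_mul]
  exact isPS_finset_sum _ _ (fun x _ => (hp _).mul (hq _))

theorem isPS_polyCoeff_X_sub_C {a : LaurentSeries K} (ha : IsPS a) (i : ℕ) :
    IsPS ((Polynomial.X - Polynomial.C a).coeff i) := by
  rw [Polynomial.coeff_sub, Polynomial.coeff_X, Polynomial.coeff_C, sub_eq_add_neg]
  refine IsPS.add ?_ (IsPS.neg ?_)
  · split_ifs
    exacts [isPS_one, isPS_zero]
  · split_ifs
    exacts [ha, isPS_zero]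

theorem isPS_polyCoeff_prod_X_sub_C {ι : Type*} (s : Finset ι) (a : ι → LaurentSeries K)
    (ha : ∀ i ∈ s, IsPS (a i)) (n : ℕ) :
    IsPS ((∏ i ∈ s, (Polynomial.X - Polynomial.C (a i))).coeff n) := by
  revert n
  refine Finset.prod_induction _ (fun p : Polynomial (LaurentSeries K) => ∀ n, IsPS (p.coeff n))
    (fun p q hp hq n => isPS_polyCoeff_mul hp hq n) ?_
    (fun i hi n => isPS_polyCoeff_X_sub_C (ha i hi) n)
  intro n
  rw [Polynomial.coeff_one]
  split_ifs
  exacts [isPS_one, isPS_zero]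

/-- a root of a polynomial with power series coefficients and constant coefficient of order `0`
does not have positive order. -/
theorem not_order_pos_of_polyEval_eq_zero {G : Polynomial (LaurentSeries K)}
    (hG : ∀ i, IsPS (G.coeff i)) (h0 : (G.coeff 0).order = 0) (h0' : G.coeff 0 ≠ 0)
    {t : LaurentSeries K} (ht : G.eval t = 0) : ¬ 0 < t.order := by
  intro hpos
  have htPS : IsPS t := isPS_of_order_nonneg hpos.le
  have ht0 : t ≠ 0 := by
    rintro rfl
    rw [HahnSeries.order_zero] at hpos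
    exact lt_irrefl _ hpos
  have huPS : IsPS (G.divX.eval t) := by
    rw [Polynomial.eval_eq_sum_range]
    refine isPS_finset_sum _ _ (fun i _ => ?_)
    rw [Polynomial.coeff_divX]
    exact (hG _).mul (htPS.pow i)
  have hsum : G.divX.eval t * t + G.coeff 0 = 0 := by
    have h := congrArg (Polynomial.eval t) (Polynomial.divX_mul_X_add G)
    rw [ht, Polynomial.eval_add, Polynomial.eval_mul, Polynomial.eval_X, Polynomial.eval_C] at h
    exact h
  have hut : G.divX.eval t * t = - G.coeff 0 := eq_neg_of_add_eq_zero_left hsum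
  have hu0 : G.divX.eval t ≠ 0 := by
    intro h
    rw [h, zero_mul] at hut
    exact h0' (neg_eq_zero.mp hut.symm)
  have h1 := HahnSeries.order_mul hu0 ht0
  rw [hut, HahnSeries.order_neg, h0] at h1
  have h2 := huPS.order_nonneg
  omega

/-- a nonzero root of a monic polynomial whose coefficients all have order `0` (or vanish),
with nonzero constant coefficient, has order `0`. -/
theorem order_eq_zero_of_polyEval_eq_zero {F : Polynomial (LaurentSeries K)} (hF : F.Monic)
    (hc : ∀ i, (F.coeff i).order = 0) (h0 : F.coeff 0 ≠ 0) {t : LaurentSeries K} (ht0 : t ≠ 0)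
    (ht : F.eval t = 0) : t.order = 0 := by
  have hPS : ∀ i, IsPS (F.coeff i) := fun i => isPS_of_order_nonneg (hc i).ge
  have h1 : ¬ 0 < t.order := not_order_pos_of_polyEval_eq_zero hPS (hc 0) h0 ht
  have h2 : ¬ 0 < t⁻¹.order := by
    refine not_order_pos_of_polyEval_eq_zero (G := F.reverse) (fun i => ?_) ?_ ?_ ?_
    · rw [Polynomial.coeff_reverse]
      exact hPS _
    · rw [Polynomial.coeff_reverse]
      exact hc _
    · rw [Polynomial.coeff_zero_reverse, hF.leadingCoeff]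
      exact one_ne_zero
    · let := invertibleOfNonzero ht0
      have h := (Polynomial.eval₂_reverse_eq_zero_iff (RingHom.id _) t F).mpr ht
      rw [invOf_eq_inv] at h
      exact h
  have h3 : t.order + t⁻¹.order = 0 := by
    rw [← HahnSeries.order_mul ht0 (inv_ne_zero ht0), mul_inv_cancel₀ ht0, HahnSeries.order_one]
  omega

end LaurentAux

namespace CoverDatum

variable {K : Type*} [Field K] {𝔉 : Type*} [Field 𝔉] [Algebra K 𝔉] {Γ : Type*} [Group Γ]
  (D : CoverDatum K 𝔉 Γ)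

/-- for `x ∈ F = 𝔉^H`, `ρ a⁻¹ x` only depends on the right coset `H a`. -/
theorem ρ_inv_mul_of_mem_F {x : 𝔉} (hx : x ∈ D.F) (h a : Γ) (hh : h ∈ D.H) :
    D.ρ (h * a)⁻¹ x = D.ρ a⁻¹ x := by
  rw [mul_inv_rev, map_mul, AlgEquiv.mul_apply, hx h⁻¹ (D.H.inv_mem hh)]

/-- for `x ∈ F`, the conjugate attached to the chosen representative of the coset `H a` is the
conjugate attached to `a`. -/
theorem ρ_rightQuot_out_inv_of_mem_F {x : 𝔉} (hx : x ∈ D.F) (a : Γ) :
    D.ρ ((Quotient.mk'' a : Quotient (QuotientGroup.rightRel D.H)).out)⁻¹ x = D.ρ a⁻¹ x := by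
  have h1 : a * ((Quotient.mk'' a : Quotient (QuotientGroup.rightRel D.H)).out)⁻¹ ∈ D.H :=
    QuotientGroup.rightRel_apply.mp (Quotient.mk_out' a)
  have h2 := D.ρ_inv_mul_of_mem_F hx _
    ((Quotient.mk'' a : Quotient (QuotientGroup.rightRel D.H)).out) h1
  rw [inv_mul_cancel_right] at h2
  exact h2.symm

/-- right multiplication by `γ⁻¹` on the right cosets of `H` (the permutation of the conjugates
of `x ∈ F` effected by `ρ γ`). -/
def charPolyPerm (γ : Γ) :
    Quotient (QuotientGroup.rightRel D.H) ≃ Quotient (QuotientGroup.rightRel D.H) where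
  toFun := Quotient.map' (fun a => a * γ⁻¹) (fun a b hab => by
    rw [QuotientGroup.rightRel_apply] at hab ⊢
    have h : b * γ⁻¹ * (a * γ⁻¹)⁻¹ = b * a⁻¹ := by group
    rw [h]
    exact hab)
  invFun := Quotient.map' (fun a => a * γ) (fun a b hab => by
    rw [QuotientGroup.rightRel_apply] at hab ⊢
    have h : b * γ * (a * γ)⁻¹ = b * a⁻¹ := by group
    rw [h]
    exact hab)
  left_inv c := by
    induction c using Quotient.inductionOn' with
    | h a =>
      show (Quotient.mk'' (a * γ⁻¹ * γ) : Quotient (QuotientGroup.rightRel D.H)) = Quotient.mk'' a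
      rw [inv_mul_cancel_right]
  right_inv c := by
    induction c using Quotient.inductionOn' with
    | h a =>
      show (Quotient.mk'' (a * γ * γ⁻¹) : Quotient (QuotientGroup.rightRel D.H)) = Quotient.mk'' a
      rw [mul_inv_cancel_right]

theorem charPolyPerm_mk (γ a : Γ) :
    D.charPolyPerm γ (Quotient.mk'' a) = Quotient.mk'' (a * γ⁻¹) := rfl

/-- the conjugates of `x ∈ F` are permuted by every `ρ γ`. -/
theorem ρ_ρ_out_inv_eq_charPolyPerm (γ : Γ) {x : 𝔉} (hx : x ∈ D.F)
    (c : Quotient (QuotientGroup.rightRel D.H)) :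
    D.ρ γ (D.ρ (c.out)⁻¹ x) = D.ρ ((D.charPolyPerm γ c).out)⁻¹ x := by
  conv_rhs => rw [← Quotient.out_eq' c, charPolyPerm_mk, D.ρ_rightQuot_out_inv_of_mem_F hx]
  rw [mul_inv_rev, inv_inv, map_mul, AlgEquiv.mul_apply]

/-- the trace `Tr x = Σ_{Hγ} ρ γ⁻¹ x` (a sum over right cosets). -/
noncomputable def tr (x : 𝔉) : 𝔉 :=
  ∑ᶠ c : Quotient (QuotientGroup.rightRel D.H), D.ρ (c.out)⁻¹ x

theorem tr_eq_sum_univ_rightQuot [Fintype (Quotient (QuotientGroup.rightRel D.H))] (x : 𝔉) :
    D.tr x = ∑ c : Quotient (QuotientGroup.rightRel D.H), D.ρ (c.out)⁻¹ x :=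
  finsum_eq_sum_of_fintype _

theorem ρ_tr (γ : Γ) {x : 𝔉} (hx : x ∈ D.F) : D.ρ γ (D.tr x) = D.tr x := by
  have := D.finite_rightQuot
  let := Fintype.ofFinite (Quotient (QuotientGroup.rightRel D.H))
  rw [D.tr_eq_sum_univ_rightQuot, map_sum]
  simp_rw [D.ρ_ρ_out_inv_eq_charPolyPerm γ hx]
  exact Equiv.sum_comp (D.charPolyPerm γ) (fun c => D.ρ (c.out)⁻¹ x)

theorem tr_mem_adjoin {x : 𝔉} (hx : x ∈ D.F) : D.tr x ∈ K⟮D.j⟯ :=
  D.fixed _ (fun γ => D.ρ_tr γ hx)

theorem tr_add (x y : 𝔉) : D.tr (x + y) = D.tr x + D.tr y := by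
  have := D.finite_rightQuot
  let := Fintype.ofFinite (Quotient (QuotientGroup.rightRel D.H))
  simp only [D.tr_eq_sum_univ_rightQuot, map_add, Finset.sum_add_distrib]

theorem tr_smul (c : K) (x : 𝔉) : D.tr (c • x) = c • D.tr x := by
  have := D.finite_rightQuot
  let := Fintype.ofFinite (Quotient (QuotientGroup.rightRel D.H))
  simp only [D.tr_eq_sum_univ_rightQuot, map_smul, Finset.smul_sum]

open Polynomial in
/-- the characteristic polynomial `Π_{Hγ} (X - ρ γ⁻¹ x)` of `x ∈ F` over `K(j)`. -/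
theorem exists_charPoly {x : 𝔉} (hx : x ∈ D.F) :
    ∃ f : Polynomial 𝔉, f.Monic ∧ (∀ i, f.coeff i ∈ K⟮D.j⟯) ∧
      (∀ γ : Γ, f.IsRoot (D.ρ γ x)) ∧ (x ≠ 0 → f.coeff 0 ≠ 0) ∧
      (∀ P : OnePoint K, (∀ γ : Γ, ∀ n : ℤ, n < 0 → (D.T P (D.ρ γ x)).coeff n = 0) →
         ∀ i, ∀ n : ℤ, n < 0 → (D.T P (f.coeff i)).coeff n = 0) := by
  have := D.finite_rightQuot
  let := Fintype.ofFinite (Quotient (QuotientGroup.rightRel D.H))
  refine ⟨∏ c : Quotient (QuotientGroup.rightRel D.H), (X - C (D.ρ (c.out)⁻¹ x)),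
    ?_, ?_, ?_, ?_, ?_⟩
  · exact monic_prod_of_monic _ _ (fun c _ => monic_X_sub_C _)
  · intro i
    refine D.fixed _ (fun γ => ?_)
    have hmap : (∏ c : Quotient (QuotientGroup.rightRel D.H), (X - C (D.ρ (c.out)⁻¹ x))).map
        (D.ρ γ : 𝔉 →+* 𝔉) = ∏ c : Quotient (QuotientGroup.rightRel D.H),
          (X - C (D.ρ (c.out)⁻¹ x)) := by
      rw [Polynomial.map_prod]
      simp only [Polynomial.map_sub, Polynomial.map_X, Polynomial.map_C, RingHom.coe_coe,
        D.ρ_ρ_out_inv_eq_charPolyPerm γ hx]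
      exact Equiv.prod_comp (D.charPolyPerm γ) (fun c => X - C (D.ρ (c.out)⁻¹ x))
    conv_rhs => rw [← hmap]
    rw [Polynomial.coeff_map]
    rfl
  · intro γ
    rw [Polynomial.IsRoot.def, Polynomial.eval_prod]
    refine Finset.prod_eq_zero (Finset.mem_univ (Quotient.mk'' γ⁻¹)) ?_
    rw [D.ρ_rightQuot_out_inv_of_mem_F hx, inv_inv, Polynomial.eval_sub, Polynomial.eval_X,
      Polynomial.eval_C, sub_self]
  · intro hx0
    rw [Polynomial.coeff_zero_eq_eval_zero, Polynomial.eval_prod]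
    refine Finset.prod_ne_zero_iff.mpr (fun c _ => ?_)
    rw [Polynomial.eval_sub, Polynomial.eval_X, Polynomial.eval_C, zero_sub, neg_ne_zero]
    exact (map_ne_zero_iff _ (D.ρ _).injective).mpr hx0
  · intro P hP i
    have h1 : D.T P ((∏ c : Quotient (QuotientGroup.rightRel D.H),
        (X - C (D.ρ (c.out)⁻¹ x))).coeff i)
        = (∏ c : Quotient (QuotientGroup.rightRel D.H),
          (X - C (D.T P (D.ρ (c.out)⁻¹ x)))).coeff i := by
      have h2 := (Polynomial.coeff_map (p := ∏ c : Quotient (QuotientGroup.rightRel D.H),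
        (X - C (D.ρ (c.out)⁻¹ x))) (D.T P : 𝔉 →+* LaurentSeries K) i).symm
      rw [Polynomial.map_prod] at h2
      simp only [Polynomial.map_sub, Polynomial.map_X, Polynomial.map_C, RingHom.coe_coe] at h2
      exact h2
    rw [h1]
    exact isPS_polyCoeff_prod_X_sub_C _ _ (fun c _ => hP _) i

section AlgClosed

variable [IsAlgClosed K]

theorem finite_setOf_ordT_ne_zero {x : 𝔉} (hx : x ∈ D.F) (h0 : x ≠ 0) :
    {P : OnePoint K | ∃ γ : Γ, D.ordT P γ x ≠ 0}.Finite := by
  obtain ⟨f, hmon, hcoef, hroot, hc0, -⟩ := D.exists_charPoly hx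
  have hfin : ∀ i, {P : OnePoint K | (D.T P (f.coeff i)).order ≠ 0}.Finite := by
    intro i
    by_cases hi : f.coeff i = 0
    · refine Set.finite_empty.subset (fun P hP => hP ?_)
      rw [hi, map_zero, HahnSeries.order_zero]
    · exact D.finite_setOf_order_T_ne_zero (hcoef i) hi
  refine ((Finset.range (f.natDegree + 1)).finite_toSet.biUnion (fun i _ => hfin i)).subset ?_
  rintro P ⟨γ, hγ⟩
  by_contra hP
  have hall : ∀ i, (D.T P (f.coeff i)).order = 0 := by
    intro i
    by_cases hi : i < f.natDegree + 1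
    · by_contra hne
      exact hP (Set.mem_biUnion (Finset.mem_coe.mpr (Finset.mem_range.mpr hi)) hne)
    · rw [Polynomial.coeff_eq_zero_of_natDegree_lt (by omega), map_zero, HahnSeries.order_zero]
  apply hγ
  rw [D.ordT_def]
  refine order_eq_zero_of_polyEval_eq_zero (F := f.map (D.T P : 𝔉 →+* LaurentSeries K))
    (hmon.map _) (fun i => ?_) ?_ (D.T_ρ_ne_zero P γ⁻¹ h0) ?_
  · rw [Polynomial.coeff_map]
    exact hall i
  · rw [Polynomial.coeff_map]
    exact fun h => hc0 h0 (D.T_injective P (h.trans (map_zero _).symm))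
  · have h := hroot γ⁻¹
    rw [Polynomial.IsRoot.def] at h
    have h' := Polynomial.eval_map_apply (p := f) (D.T P : 𝔉 →+* LaurentSeries K) (D.ρ γ⁻¹ x)
    rw [h, map_zero] at h'
    exact h'

theorem exists_eq_algebraMap_of_ordT_nonneg {x : 𝔉} (hx : x ∈ D.F)
    (h : ∀ (P : OnePoint K) (γ : Γ), 0 ≤ D.ordT P γ x) : ∃ c : K, x = algebraMap K 𝔉 c := by
  obtain ⟨f, hmon, hcoef, hroot, -, hPS⟩ := D.exists_charPoly hx
  have hconst : ∀ i, f.coeff i ∈ Set.range (algebraMap K 𝔉) := by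
    intro i
    obtain ⟨c, hc⟩ := D.exists_eq_algebraMap_of_order_T_nonneg (hcoef i) (fun P => by
      refine IsPS.order_nonneg (hPS P (fun γ => ?_) i)
      have h1 := h P γ⁻¹
      rw [D.ordT_def, inv_inv] at h1
      exact isPS_of_order_nonneg h1)
    exact ⟨c, hc.symm⟩
  obtain ⟨q, hq, -, hqmon⟩ := Polynomial.lifts_and_natDegree_eq_and_monic
    ((Polynomial.lifts_iff_coeff_lifts f).mpr hconst) hmon
  have hint : IsIntegral K x := by
    refine ⟨q, hqmon, ?_⟩
    have h1 := hroot 1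
    rw [map_one, AlgEquiv.one_apply, Polynomial.IsRoot.def] at h1
    rw [Polynomial.eval₂_eq_eval_map, hq]
    exact h1
  obtain ⟨c, hc⟩ := minpoly.mem_range_of_degree_eq_one K x
    (IsAlgClosed.degree_eq_one_of_irreducible K (minpoly.irreducible hint))
  exact ⟨c, hc.symm⟩

theorem finite_support_ordAt {x : D.F} (hx : x ≠ 0) : {p : D.Pt | D.ordAt p x ≠ 0}.Finite := by
  have hx0 : (x : 𝔉) ≠ 0 := fun h => hx (Subtype.ext h)
  have hS := D.finite_setOf_ordT_ne_zero x.2 hx0
  refine (hS.biUnion (t := fun P => Set.range (fun q : DoubleCoset.Quotient (D.H : Set Γ)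
    (D.G P : Set Γ) => (⟨P, q⟩ : D.Pt))) (fun P _ => ?_)).subset ?_
  · have := D.finite_dcQuot P
    exact Set.finite_range _
  · rintro ⟨P, q⟩ hp
    exact Set.mem_biUnion (x := P) ⟨q.out, fun h0 => hp ((D.ordAt_eq_zero_iff _ x).mpr h0)⟩
      ⟨q, rfl⟩

theorem const_of_ordAt_nonneg {x : D.F} (hx : x ≠ 0) (h : ∀ p : D.Pt, 0 ≤ D.ordAt p x) :
    ∃ c : K, x = algebraMap K D.F c := by
  have _ := hx
  obtain ⟨c, hc⟩ := D.exists_eq_algebraMap_of_ordT_nonneg x.2 (fun P γ => by
    rw [← D.ordT_out P γ x x.2]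
    exact (D.ordAt_nonneg_iff ⟨P, DoubleCoset.mk D.H (D.G P) γ⟩ x).mp (h _))
  exact ⟨c, Subtype.ext hc⟩

end AlgClosed

end CoverDatum

end Fermat.Agent.CoverL
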