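import Fermat.Agent.Cover.PreCurve
import Fermat.Agent.RR.Main

/-!
# Cover package: the counting hypothesis of `PreCurve.curve_of_count` for `x = j`, and
`exists_curve`
-/

set_option autoImplicit false

open scoped IntermediateField

namespace Fermat.Agent.CoverL

open Fermat.Agent.RRL

namespace CoverDatum

variable {K : Type*} [Field K] {𝔉 : Type*} [Field 𝔉] [Algebra K 𝔉] {Γ : Type*} [Group Γ]
  (D : CoverDatum K 𝔉 Γ)

/-- `j` as an element of `F = 𝔉^H`. -/
def jF : D.F := ⟨D.j, fun h _ => D.ρ_j h⟩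

@[simp] theorem coe_jF : ((D.jF : D.F) : 𝔉) = D.j := rfl

theorem jF_ne_algebraMap (c : K) : D.jF ≠ algebraMap K D.F c := by
  intro h
  exact D.j_ne_algebraMap c (congrArg (fun x : D.F => (x : 𝔉)) h)

/-- the raw order of `j - c` does not depend on the chosen representative. -/
theorem ordT_j_sub (P : OnePoint K) (γ : Γ) (c : K) :
    D.ordT P γ (D.j - algebraMap K 𝔉 c) = (D.T P (D.j - algebraMap K 𝔉 c)).order := by
  rw [D.ordT_def, map_sub, D.ρ_j, AlgEquiv.commutes]

theorem ordT_j (P : OnePoint K) (γ : Γ) : D.ordT P γ D.j = (D.T P D.j).order := by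
  rw [D.ordT_def, D.ρ_j]

/-- if the raw order is `m · d` then the normalized order is `e · m`. -/
theorem ordAt_eq_of_ordT_eq (p : D.Pt) (x : D.F) (m : ℤ)
    (h : D.ordT p.1 p.2.out (x : 𝔉) = m * (D.d p.1 : ℤ)) : D.ordAt p x = (D.e p : ℤ) * m := by
  have h1 := D.d_mul_ordAt' p x
  rw [h] at h1
  have hd : (D.d p.1 : ℤ) ≠ 0 := Int.natCast_ne_zero.mpr (D.d_pos p.1).ne'
  apply mul_left_cancel₀ hd
  rw [h1]; ring

theorem ordAt_jF_sub_coe (c : K)
    (q : DoubleCoset.Quotient (D.H : Set Γ) (D.G (c : OnePoint K) : Set Γ)) :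
    D.ordAt ⟨(c : OnePoint K), q⟩ (D.jF - algebraMap K D.F c)
      = (D.e ⟨(c : OnePoint K), q⟩ : ℤ) := by
  have h := D.ordAt_eq_of_ordT_eq ⟨(c : OnePoint K), q⟩ (D.jF - algebraMap K D.F c) 1
    (by rw [one_mul]; exact (D.ordT_j_sub _ _ c).trans (D.order_T_j_sub c))
  rw [h, mul_one]

theorem ordAt_jF_sub_coe_of_ne (c c' : K) (h : c' ≠ c)
    (q : DoubleCoset.Quotient (D.H : Set Γ) (D.G (c' : OnePoint K) : Set Γ)) :
    D.ordAt ⟨(c' : OnePoint K), q⟩ (D.jF - algebraMap K D.F c) = 0 := by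
  have h := D.ordAt_eq_of_ordT_eq ⟨(c' : OnePoint K), q⟩ (D.jF - algebraMap K D.F c) 0
    (by rw [zero_mul]; exact (D.ordT_j_sub _ _ c).trans (D.order_T_j_sub_of_ne c c' h))
  rw [h, mul_zero]

theorem ordAt_jF_sub_infty (c : K)
    (q : DoubleCoset.Quotient (D.H : Set Γ) (D.G OnePoint.infty : Set Γ)) :
    D.ordAt ⟨OnePoint.infty, q⟩ (D.jF - algebraMap K D.F c)
      = -(D.e ⟨OnePoint.infty, q⟩ : ℤ) := by
  have h := D.ordAt_eq_of_ordT_eq ⟨OnePoint.infty, q⟩ (D.jF - algebraMap K D.F c) (-1)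
    (by rw [neg_one_mul]; exact (D.ordT_j_sub _ _ c).trans (D.order_T_infty_j_sub c))
  rw [h, mul_neg_one]

theorem ordAt_jF_infty (q : DoubleCoset.Quotient (D.H : Set Γ) (D.G OnePoint.infty : Set Γ)) :
    D.ordAt ⟨OnePoint.infty, q⟩ D.jF = -(D.e ⟨OnePoint.infty, q⟩ : ℤ) := by
  have h := D.ordAt_eq_of_ordT_eq ⟨OnePoint.infty, q⟩ D.jF (-1)
    (by rw [neg_one_mul]; exact (D.ordT_j _ _).trans D.order_T_j_infty)
  rw [h, mul_neg_one]

theorem ordAt_jF_coe_nonneg (c : K)
    (q : DoubleCoset.Quotient (D.H : Set Γ) (D.G (c : OnePoint K) : Set Γ)) :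
    0 ≤ D.ordAt ⟨(c : OnePoint K), q⟩ D.jF := by
  have h1 := D.ordAt_jF_sub_coe c q
  by_cases hc : c = 0
  · subst hc
    rw [map_zero, sub_zero] at h1
    rw [h1]; exact Int.natCast_nonneg _
  · have hx : D.jF - algebraMap K D.F c ≠ 0 := sub_ne_zero.mpr (D.jF_ne_algebraMap c)
    have hy : algebraMap K D.F c ≠ 0 := by simpa using hc
    have hxy : D.jF - algebraMap K D.F c + algebraMap K D.F c ≠ 0 := by
      rw [sub_add_cancel]
      have := D.jF_ne_algebraMap 0
      rwa [map_zero] at this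
    have h2 := D.ordAt_add ⟨(c : OnePoint K), q⟩ hx hy hxy
    rw [sub_add_cancel, h1, D.ordAt_algebraMap ⟨(c : OnePoint K), q⟩ hc] at h2
    exact le_trans (le_min (Int.natCast_nonneg _) le_rfl) h2

/-- a sum over the points of the curve of a function supported on one fibre, where it equals
the ramification index, is the degree of the cover. -/
theorem finsum_Pt_of_fibre (f : D.Pt → ℤ) (P₀ : OnePoint K)
    (h0 : ∀ (P : OnePoint K) (q : DoubleCoset.Quotient (D.H : Set Γ) (D.G P : Set Γ)),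
      P ≠ P₀ → f ⟨P, q⟩ = 0)
    (h1 : ∀ q : DoubleCoset.Quotient (D.H : Set Γ) (D.G P₀ : Set Γ),
      f ⟨P₀, q⟩ = (D.e ⟨P₀, q⟩ : ℤ)) :
    ∑ᶠ p : D.Pt, f p = (D.H.index : ℤ) := by
  have := D.finite_dcQuot P₀
  have hsupp : Function.support f ⊆ Set.range (fun q => (⟨P₀, q⟩ : D.Pt)) := by
    rintro ⟨P, q⟩ hp
    by_cases h : P = P₀
    · subst h; exact ⟨q, rfl⟩
    · exact absurd (h0 P q h) hp
  rw [D.finsum_Pt f ((Set.finite_range _).subset hsupp), finsum_eq_single _ P₀]
  · rw [← D.finsum_e P₀, Nat.cast_finsum]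
    exact finsum_congr h1
  · intro P hP
    exact finsum_eq_zero_of_forall_eq_zero (fun q => h0 P q hP)

/-- the fibre of `j` over `c` has exactly `H.index` points, counted with multiplicity -/
theorem finsum_max_ordAt_jF_sub (c : K) :
    ∑ᶠ p : D.Pt, max (D.ordAt p (D.jF - algebraMap K D.F c)) 0 = (D.H.index : ℤ) := by
  refine D.finsum_Pt_of_fibre _ (c : OnePoint K) ?_ ?_
  · intro P q hP
    induction P using OnePoint.rec with
    | infty => simp [D.ordAt_jF_sub_infty]
    | coe c' =>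
      have hc : c' ≠ c := fun h => hP (by rw [h])
      simp [D.ordAt_jF_sub_coe_of_ne c c' hc q]
  · intro q
    simp [D.ordAt_jF_sub_coe]

/-- the polar divisor of `j` has degree `H.index` -/
theorem finsum_max_neg_ordAt_jF :
    ∑ᶠ p : D.Pt, max (-D.ordAt p D.jF) 0 = (D.H.index : ℤ) := by
  refine D.finsum_Pt_of_fibre _ OnePoint.infty ?_ ?_
  · intro P q hP
    induction P using OnePoint.rec with
    | infty => exact absurd rfl hP
    | coe c => exact max_eq_right (neg_nonpos.mpr (D.ordAt_jF_coe_nonneg c q))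
  · intro q
    simp [D.ordAt_jF_infty]

/-- every `ρ γ` fixes (the image in `𝔉` of) `K(j) ⊆ F`. -/
theorem ρ_coe_of_mem_adjoin_jF (γ : Γ) (a : K⟮D.jF⟯) :
    D.ρ γ ((a : D.F) : 𝔉) = ((a : D.F) : 𝔉) := by
  obtain ⟨a, ha⟩ := a
  induction ha using IntermediateField.adjoin_induction with
  | mem x hx =>
    rw [Set.mem_singleton_iff] at hx
    subst hx
    exact D.ρ_j γ
  | algebraMap x => exact AlgEquiv.commutes _ x
  | add x y hx hy ihx ihy =>
    change D.ρ γ ((x : 𝔉) + (y : 𝔉)) = (x : 𝔉) + (y : 𝔉)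
    rw [map_add]; exact congrArg₂ _ ihx ihy
  | inv x hx ih =>
    change D.ρ γ ((x : 𝔉)⁻¹) = (x : 𝔉)⁻¹
    rw [map_inv₀]; exact congrArg _ ih
  | mul x y hx hy ihx ihy =>
    change D.ρ γ ((x : 𝔉) * (y : 𝔉)) = (x : 𝔉) * (y : 𝔉)
    rw [map_mul]; exact congrArg₂ _ ihx ihy

/-- the conjugates `ρ γ y`, `γ` running through representatives of `Γ / H`, are distinct. -/
theorem injective_ρ_out_y : Function.Injective (fun q : Γ ⧸ D.H => D.ρ q.out D.y) := by
  intro q q' h
  have h' : D.ρ (q'.out⁻¹ * q.out) D.y = D.y := by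
    have h2 : D.ρ q.out D.y = D.ρ q'.out D.y := h
    rw [map_mul, AlgEquiv.mul_apply, h2, ← AlgEquiv.mul_apply, ← map_mul, inv_mul_cancel,
      map_one, AlgEquiv.one_apply]
  have h3 := D.mem_H_of_ρ_y _ h'
  rw [← QuotientGroup.out_eq' q, ← QuotientGroup.out_eq' q']
  exact (QuotientGroup.eq.mpr h3).symm

/-- `[F : K(j)] ≥ H.index`: `y ∈ F` has `H.index` distinct conjugates `ρ γ y`, all of which
are roots of its minimal polynomial over `K(j)`. -/
theorem index_le_rank : (D.H.index : Cardinal) ≤ Module.rank K⟮D.jF⟯ D.F := by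
  classical
  have : Finite (Γ ⧸ D.H) := Nat.finite_of_card_ne_zero D.H_index_ne_zero
  let _ : Fintype (Γ ⧸ D.H) := Fintype.ofFinite _
  have hcard : Fintype.card (Γ ⧸ D.H) = D.H.index := by
    rw [← Nat.card_eq_fintype_card]; rfl
  have hli : LinearIndependent K⟮D.jF⟯
      (fun i : Fin D.H.index => (⟨D.y, D.ρ_y⟩ : D.F) ^ (i : ℕ)) := by
    rw [Fintype.linearIndependent_iff]
    intro g hg i
    have hg' : ∑ i : Fin D.H.index, ((g i : D.F) : 𝔉) * D.y ^ (i : ℕ) = 0 := by
      have := congrArg (fun x : D.F => (x : 𝔉)) hg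
      simpa [IntermediateField.smul_def] using this
    have hp0 : Polynomial.ofFn D.H.index (fun i => ((g i : D.F) : 𝔉)) = 0 := by
      refine Polynomial.eq_zero_of_natDegree_lt_card_of_eval_eq_zero _ D.injective_ρ_out_y
        (fun q => ?_) ?_
      · have h2 := congrArg (D.ρ q.out) hg'
        rw [map_sum, map_zero] at h2
        rw [Polynomial.ofFn_eq_sum_monomial, Polynomial.eval_finsetSum, ← h2]
        refine Finset.sum_congr rfl fun i _ => ?_
        rw [Polynomial.eval_monomial, map_mul, map_pow, D.ρ_coe_of_mem_adjoin_jF]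
      · rw [hcard]
        exact Polynomial.ofFn_natDegree_lt (Nat.one_le_iff_ne_zero.mpr D.H_index_ne_zero) _
    have h3 := Polynomial.ofFn_coeff_eq_val_of_lt (fun i => ((g i : D.F) : 𝔉)) i.2
    rw [hp0, Polynomial.coeff_zero] at h3
    have h4 : ((g i : D.F) : 𝔉) = 0 := h3.symm
    simpa using h4
  simpa using hli.cardinal_lift_le_rank

section AlgClosed

variable [IsAlgClosed K] [CharZero K]

set_option linter.unusedSectionVars false in
/-- the valuations are normalized and pairwise inequivalent (via `PreCurve.curve_of_count`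
with `x = j`, `n = H.index`). -/
theorem exists_curve : ∃ C : Curve K D.F D.Pt, C.toPreCurve = D.preCurve := by
  have h := PreCurve.curve_of_count D.preCurve D.jF D.H.index D.jF_ne_algebraMap D.index_le_rank
    (fun c => le_of_eq (D.finsum_max_ordAt_jF_sub c)) (le_of_eq D.finsum_max_neg_ordAt_jF)
  exact ⟨{ toPreCurve := D.preCurve, exists_uniformizer := h.1, separated := h.2 }, rfl⟩

end AlgClosed

end CoverDatum

end Fermat.Agent.CoverL
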