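import Fermat.Agent.RR.Defs

/-!
# Uniformized Galois covers of the projective line (interface)

A `CoverDatum K 𝔉 Γ` abstracts the field `𝔉` of modular functions of level `Γ(N)` with its
`Γ = SL₂(ℤ)`-action, the function `j`, and, for every point `P ∈ P¹(K) = OnePoint K`
(a value of `j`), a local expansion `T P : 𝔉 →ₐ[K] K((w))` at one chosen point `z_P` above `P`
together with the stabilizer `G P ≤ Γ` of `z_P`, which acts on expansions by `w ↦ χ w`.
`H ≤ Γ` is a finite-index subgroup (`Γ₀(N)`), and `y ∈ 𝔉^H` an element with stabilizer `H`.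

Conventions: `(ρ γ x)(z) = x(γ⁻¹ z)`.  The points of the curve `H \ (upper half plane)^*`
above `P` are the double cosets `H γ (G P)` (the point `H γ z_P`), and a function
`x ∈ 𝔉^H` is studied near `γ z_P` through the expansion `T P (ρ γ⁻¹ x)`.
-/

set_option autoImplicit false

open scoped IntermediateField

namespace Fermat.Agent.CoverL

/-- See the module docstring. -/
structure CoverDatum (K : Type*) [Field K] (𝔉 : Type*) [Field 𝔉] [Algebra K 𝔉]
    (Γ : Type*) [Group Γ] where
  /-- the action on functions -/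
  ρ : Γ →* (𝔉 ≃ₐ[K] 𝔉)
  /-- the Hauptmodul of the base `P¹` -/
  j : 𝔉
  ρ_j : ∀ γ : Γ, ρ γ j = j
  /-- the fixed field of `Γ` is `K(j)` -/
  fixed : ∀ x : 𝔉, (∀ γ : Γ, ρ γ x = x) → x ∈ K⟮j⟯
  /-- local expansion at the chosen point above `P` -/
  T : OnePoint K → (𝔉 →ₐ[K] LaurentSeries K)
  /-- stabilizer of the chosen point above `P` -/
  G : OnePoint K → Subgroup Γ
  /-- the rotation character of `G P` (only its values on `G P` matter) -/
  χ : OnePoint K → Γ → Kˣ
  χ_mul : ∀ (P : OnePoint K) (g h : Γ), g ∈ G P → h ∈ G P → χ P (g * h) = χ P g * χ P h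
  /-- `G P` acts on expansions by rescaling the local coordinate -/
  T_ρ : ∀ (P : OnePoint K) (g : Γ), g ∈ G P → ∀ (x : 𝔉) (n : ℤ),
    (T P (ρ g x)).coeff n = ((χ P g : Kˣ) : K) ^ n * (T P x).coeff n
  /-- local degree of `j` at the chosen point above `P` -/
  d : OnePoint K → ℕ
  d_pos : ∀ P : OnePoint K, 0 < d P
  order_T_j_sub : ∀ c : K, (T (c : OnePoint K) (j - algebraMap K 𝔉 c)).order = (d (c : OnePoint K) : ℤ)
  order_T_j_infty : (T OnePoint.infty j).order = -(d OnePoint.infty : ℤ)
  /-- the image of `G P` under `χ P` has exactly `d P` elements -/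
  card_χ : ∀ P : OnePoint K, Nat.card ↥((χ P) '' (G P : Set Γ)) = d P
  /-- the subgroup defining the curve -/
  H : Subgroup Γ
  H_index_ne_zero : H.index ≠ 0
  /-- an `H`-invariant function whose stabilizer is exactly `H` -/
  y : 𝔉
  ρ_y : ∀ h : Γ, h ∈ H → ρ h y = y
  mem_H_of_ρ_y : ∀ γ : Γ, ρ γ y = y → γ ∈ H
  /-- all but finitely many `P` are unramified in every conjugate of `H` -/
  finite_ram : {P : OnePoint K | ¬ G P ≤ H.normalCore}.Finite

namespace CoverDatum

variable {K : Type*} [Field K] {𝔉 : Type*} [Field 𝔉] [Algebra K 𝔉] {Γ : Type*} [Group Γ]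

/-- The function field of the curve: the fixed field of `H`. -/
def F (D : CoverDatum K 𝔉 Γ) : IntermediateField K 𝔉 where
  carrier := {x | ∀ h : Γ, h ∈ D.H → D.ρ h x = x}
  mul_mem' := fun hx hy h hh => by rw [map_mul, hx h hh, hy h hh]
  add_mem' := fun hx hy h hh => by rw [map_add, hx h hh, hy h hh]
  algebraMap_mem' := fun c h _ => by simp
  inv_mem' := fun x hx h hh => by rw [map_inv₀, hx h hh]

theorem mem_F (D : CoverDatum K 𝔉 Γ) (x : 𝔉) : x ∈ D.F ↔ ∀ h : Γ, h ∈ D.H → D.ρ h x = x :=
  Iff.rfl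

/-- The points of the curve: pairs (a point `P` of the base, a double coset `H γ (G P)`). -/
def Pt (D : CoverDatum K 𝔉 Γ) : Type _ :=
  Σ P : OnePoint K, DoubleCoset.Quotient (D.H : Set Γ) (D.G P : Set Γ)

/-- The ramification index of the point `H γ (G P)` over `P`: the number of right cosets
`H γ'` contained in the double coset `H γ (G P)`. -/
noncomputable def e (D : CoverDatum K 𝔉 Γ) (p : D.Pt) : ℕ :=
  Nat.card {c : Quotient (QuotientGroup.rightRel D.H) //
    DoubleCoset.mk D.H (D.G p.1) c.out = p.2}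

end CoverDatum

end Fermat.Agent.CoverL
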