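import Fermat.Agent.Cover.Defs

/-!
# Cover package: group theory of the double cosets `H γ (G P)`

Everything here is elementary group theory, plus the one "analytic" input that an element of
`G P` with trivial rotation character acts trivially on `𝔉` (injectivity of `T P`).
-/

set_option autoImplicit false

namespace Fermat.Agent.CoverL

namespace CoverDatum

variable {K : Type*} [Field K] {𝔉 : Type*} [Field 𝔉] [Algebra K 𝔉] {Γ : Type*} [Group Γ]
  (D : CoverDatum K 𝔉 Γ)

theorem T_injective (P : OnePoint K) : Function.Injective (D.T P) :=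
  (D.T P).toRingHom.injective

theorem finite_rightQuot : Finite (Quotient (QuotientGroup.rightRel D.H)) := by
  have : Finite (Γ ⧸ D.H) := Nat.finite_of_card_ne_zero D.H_index_ne_zero
  exact Finite.of_equiv _ (QuotientGroup.quotientRightRelEquivQuotientLeftRel D.H).symm

/-- The map from the right cosets `H γ` to the double cosets `H γ (G P)`. -/
noncomputable def rightToDc (P : OnePoint K) (c : Quotient (QuotientGroup.rightRel D.H)) :
    DoubleCoset.Quotient (D.H : Set Γ) (D.G P : Set Γ) :=
  DoubleCoset.mk D.H (D.G P) c.out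

theorem rightToDc_mk (P : OnePoint K) (γ : Γ) :
    D.rightToDc P (Quotient.mk (QuotientGroup.rightRel D.H) γ) = DoubleCoset.mk D.H (D.G P) γ := by
  have h : (QuotientGroup.rightRel D.H)
      (Quotient.mk (QuotientGroup.rightRel D.H) γ).out γ := Quotient.mk_out γ
  rw [QuotientGroup.rightRel_apply] at h
  unfold rightToDc
  rw [DoubleCoset.eq]
  exact ⟨_, h, 1, (D.G P).one_mem, by group⟩

theorem rightToDc_surjective (P : OnePoint K) : Function.Surjective (D.rightToDc P) := by
  intro q
  refine ⟨Quotient.mk (QuotientGroup.rightRel D.H) q.out, ?_⟩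
  rw [rightToDc_mk, DoubleCoset.out_eq']

theorem finite_dcQuot (P : OnePoint K) :
    Finite (DoubleCoset.Quotient (D.H : Set Γ) (D.G P : Set Γ)) := by
  have := D.finite_rightQuot
  exact Finite.of_surjective _ (D.rightToDc_surjective P)

theorem card_rightQuot : Nat.card (Quotient (QuotientGroup.rightRel D.H)) = D.H.index :=
  Nat.card_congr (QuotientGroup.quotientRightRelEquivQuotientLeftRel D.H)

theorem e_pos (p : D.Pt) : 0 < D.e p := by
  have := D.finite_rightQuot
  obtain ⟨c, hc⟩ := D.rightToDc_surjective p.1 p.2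
  have : Nonempty {c : Quotient (QuotientGroup.rightRel D.H) //
      DoubleCoset.mk D.H (D.G p.1) c.out = p.2} := ⟨⟨c, hc⟩⟩
  exact Nat.card_pos

/-- the ramification indices above `P` add up to the degree of the cover -/
theorem finsum_e (P : OnePoint K) :
    ∑ᶠ q : DoubleCoset.Quotient (D.H : Set Γ) (D.G P : Set Γ), D.e ⟨P, q⟩ = D.H.index := by
  have := D.finite_rightQuot
  have := D.finite_dcQuot P
  let := Fintype.ofFinite (DoubleCoset.Quotient (D.H : Set Γ) (D.G P : Set Γ))
  rw [finsum_eq_sum_of_fintype, ← D.card_rightQuot,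
    ← Nat.card_congr (Equiv.sigmaFiberEquiv (D.rightToDc P)), Nat.card_sigma]
  rfl

/-- orbit counting: a sum over right cosets `H γ` of a function which is constant on the double
cosets `H γ (G P)` is the sum over the double cosets weighted by `e`. -/
theorem finsum_rightQuot_eq {A : Type*} [AddCommMonoid A] (P : OnePoint K) (f : Γ → A)
    (hf : ∀ γ h g : Γ, h ∈ D.H → g ∈ D.G P → f (h * γ * g) = f γ) :
    ∑ᶠ c : Quotient (QuotientGroup.rightRel D.H), f c.out
      = ∑ᶠ q : DoubleCoset.Quotient (D.H : Set Γ) (D.G P : Set Γ), D.e ⟨P, q⟩ • f q.out := by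
  classical
  have := D.finite_rightQuot
  have := D.finite_dcQuot P
  let := Fintype.ofFinite (Quotient (QuotientGroup.rightRel D.H))
  let := Fintype.ofFinite (DoubleCoset.Quotient (D.H : Set Γ) (D.G P : Set Γ))
  have key : ∀ c : Quotient (QuotientGroup.rightRel D.H),
      f c.out = f (D.rightToDc P c).out := by
    intro c
    have h1 : DoubleCoset.mk D.H (D.G P) (D.rightToDc P c).out
        = DoubleCoset.mk D.H (D.G P) c.out := DoubleCoset.out_eq' _ _ _
    obtain ⟨h, hh, g, hg, hEq⟩ := (DoubleCoset.eq _ _ _ _).1 h1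
    rw [hEq, hf _ _ _ hh hg]
  rw [finsum_eq_sum_of_fintype, finsum_eq_sum_of_fintype]
  calc ∑ c : Quotient (QuotientGroup.rightRel D.H), f c.out
      = ∑ c : Quotient (QuotientGroup.rightRel D.H), f (D.rightToDc P c).out :=
        Finset.sum_congr rfl fun c _ => key c
    _ = ∑ q : DoubleCoset.Quotient (D.H : Set Γ) (D.G P : Set Γ),
          ∑ _c : {c // D.rightToDc P c = q}, f q.out :=
        (Fintype.sum_fiberwise' (D.rightToDc P) fun q => f q.out).symm
    _ = ∑ q : DoubleCoset.Quotient (D.H : Set Γ) (D.G P : Set Γ), D.e ⟨P, q⟩ • f q.out := by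
        refine Finset.sum_congr rfl fun q _ => ?_
        rw [Finset.sum_const, Finset.card_univ, ← Nat.card_eq_fintype_card]
        rfl

/-- sums over the points of the curve are iterated sums (finite support needed). -/
theorem finsum_Pt {A : Type*} [AddCommMonoid A] (f : D.Pt → A)
    (hf : (Function.support f).Finite) :
    ∑ᶠ p : D.Pt, f p
      = ∑ᶠ P : OnePoint K, ∑ᶠ q : DoubleCoset.Quotient (D.H : Set Γ) (D.G P : Set Γ),
          f ⟨P, q⟩ := by
  classical
  have := fun P => D.finite_dcQuot P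
  let := fun P => Fintype.ofFinite (DoubleCoset.Quotient (D.H : Set Γ) (D.G P : Set Γ))
  let s : Finset (OnePoint K) := hf.toFinset.image Sigma.fst
  have hs : ∀ p : D.Pt, f p ≠ 0 → p.1 ∈ s := fun p hp =>
    Finset.mem_image.2 ⟨p, hf.mem_toFinset.2 hp, rfl⟩
  have h1 : ∑ᶠ p : D.Pt, f p
      = ∑ p ∈ s.sigma (fun P => (Finset.univ :
          Finset (DoubleCoset.Quotient (D.H : Set Γ) (D.G P : Set Γ)))), f p := by
    refine finsum_eq_sum_of_support_subset _ fun p hp => ?_
    exact Finset.mem_coe.2 (Finset.mem_sigma.2 ⟨hs p hp, Finset.mem_univ _⟩)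
  have h2 : ∑ᶠ P : OnePoint K, ∑ᶠ q : DoubleCoset.Quotient (D.H : Set Γ) (D.G P : Set Γ),
      f ⟨P, q⟩ = ∑ P ∈ s, ∑ q : DoubleCoset.Quotient (D.H : Set Γ) (D.G P : Set Γ),
        f ⟨P, q⟩ := by
    simp only [finsum_eq_sum_of_fintype]
    refine finsum_eq_sum_of_support_subset _ fun P hP => ?_
    obtain ⟨q, -, hq⟩ := Finset.exists_ne_zero_of_sum_ne_zero hP
    exact Finset.mem_coe.2 (hs ⟨P, q⟩ hq)
  rw [h1, h2]
  exact Finset.sum_sigma s _ f

theorem rightToDc_injective (P : OnePoint K) (h : D.G P ≤ D.H.normalCore) :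
    Function.Injective (D.rightToDc P) := by
  intro c c' hcc
  obtain ⟨a, ha, g, hg, hEq⟩ := (DoubleCoset.eq _ _ _ _).1 hcc
  rw [← Quotient.out_eq c, ← Quotient.out_eq c']
  refine Quotient.sound (QuotientGroup.rightRel_apply.2 ?_)
  rw [hEq]
  have h3 : c.out * g * (c.out)⁻¹ ∈ D.H := h hg c.out
  have h4 : a * c.out * g * (c.out)⁻¹ = a * (c.out * g * (c.out)⁻¹) := by group
  rw [h4]
  exact D.H.mul_mem ha h3

theorem e_eq_one_of_le_normalCore (P : OnePoint K) (h : D.G P ≤ D.H.normalCore)
    (q : DoubleCoset.Quotient (D.H : Set Γ) (D.G P : Set Γ)) : D.e ⟨P, q⟩ = 1 := by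
  obtain ⟨c, hc⟩ := D.rightToDc_surjective P q
  change Nat.card {c : Quotient (QuotientGroup.rightRel D.H) // D.rightToDc P c = q} = 1
  rw [Nat.card_eq_one_iff_unique]
  exact ⟨⟨fun a b => Subtype.ext (D.rightToDc_injective P h (a.2.trans b.2.symm))⟩, ⟨⟨c, hc⟩⟩⟩

theorem card_dcQuot_of_le_normalCore (P : OnePoint K) (h : D.G P ≤ D.H.normalCore) :
    Nat.card (DoubleCoset.Quotient (D.H : Set Γ) (D.G P : Set Γ)) = D.H.index := by
  rw [← D.card_rightQuot]
  exact (Nat.card_congr (Equiv.ofBijective _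
    ⟨D.rightToDc_injective P h, D.rightToDc_surjective P⟩)).symm

end CoverDatum

end Fermat.Agent.CoverL
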