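import Fermat.Agent.Cover.Group

/-!
# Cover package: the rotation character on the stabilizers, `e · |χ(S_γ)| = d`

The one "analytic" input: an element of `G P` with trivial rotation character acts trivially
on `𝔉` (injectivity of `T P`), hence lies in every conjugate of `H` (via `y`).
-/

set_option autoImplicit false

namespace Fermat.Agent.CoverL

/-- In a finite subgroup `M` of the units of a field, `x ^ n = 1` for all `x ∈ M` iff
`|M| ∣ n` (such a subgroup is cyclic). -/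
theorem forall_zpow_eq_one_iff_card_dvd {K : Type*} [Field K] (M : Subgroup Kˣ) [Finite M]
    (n : ℤ) : (∀ x ∈ M, x ^ n = 1) ↔ (Nat.card M : ℤ) ∣ n := by
  constructor
  · intro h
    obtain ⟨ζ, hζ⟩ := IsCyclic.exists_ofOrder_eq_natCard (α := M)
    rw [← hζ, orderOf_dvd_iff_zpow_eq_one]
    apply Subtype.ext
    rw [Subgroup.coe_zpow]
    exact h ζ ζ.2
  · rintro ⟨k, rfl⟩ x hx
    have h1 : (⟨x, hx⟩ : M) ^ Nat.card M = 1 := pow_card_eq_one'
    have h2 : x ^ Nat.card M = 1 := congrArg Subtype.val h1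
    rw [zpow_mul, zpow_natCast, h2, one_zpow]

namespace CoverDatum

variable {K : Type*} [Field K] {𝔉 : Type*} [Field 𝔉] [Algebra K 𝔉] {Γ : Type*} [Group Γ]
  (D : CoverDatum K 𝔉 Γ)

/-- `S_γ = G_P ∩ γ⁻¹ H γ`: the stabilizer in `G P` of the right coset `H γ`. -/
def stab (P : OnePoint K) (γ : Γ) : Subgroup Γ :=
  D.G P ⊓ D.H.comap (MulAut.conj γ).toMonoidHom

theorem mem_stab (P : OnePoint K) (γ g : Γ) :
    g ∈ D.stab P γ ↔ g ∈ D.G P ∧ γ * g * γ⁻¹ ∈ D.H := by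
  simp [stab, Subgroup.mem_inf, Subgroup.mem_comap, MulAut.conj_apply]

theorem stab_le (P : OnePoint K) (γ : Γ) : D.stab P γ ≤ D.G P :=
  inf_le_left

theorem χ_one (P : OnePoint K) : D.χ P 1 = 1 := by
  have h := D.χ_mul P 1 1 (one_mem _) (one_mem _)
  rw [mul_one] at h
  exact mul_eq_left.mp h.symm

theorem χ_inv (P : OnePoint K) (g : Γ) (hg : g ∈ D.G P) : D.χ P g⁻¹ = (D.χ P g)⁻¹ := by
  have h := D.χ_mul P g g⁻¹ hg (inv_mem hg)
  rw [mul_inv_cancel, χ_one] at h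
  exact eq_inv_of_mul_eq_one_right h.symm

/-- The rotation character as a monoid homomorphism on `G P`. -/
def χhom (P : OnePoint K) : ↥(D.G P) →* Kˣ where
  toFun g := D.χ P g
  map_one' := D.χ_one P
  map_mul' g h := D.χ_mul P g h g.2 h.2

theorem χhom_apply (P : OnePoint K) (g : ↥(D.G P)) : D.χhom P g = D.χ P g := rfl

/-- an element of `G P` with trivial rotation character acts trivially on `𝔉`. -/
theorem ρ_apply_of_χ_eq_one (P : OnePoint K) (g : Γ) (hg : g ∈ D.G P) (h1 : D.χ P g = 1)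
    (x : 𝔉) : D.ρ g x = x := by
  apply D.T_injective P
  ext n
  rw [D.T_ρ P g hg x n, h1, Units.val_one, one_zpow, one_mul]

theorem mem_normalCore_of_χ_eq_one (P : OnePoint K) (g : Γ) (hg : g ∈ D.G P)
    (h1 : D.χ P g = 1) : g ∈ D.H.normalCore := by
  intro b
  apply D.mem_H_of_ρ_y
  rw [map_mul, map_mul, AlgEquiv.mul_apply, AlgEquiv.mul_apply, D.ρ_apply_of_χ_eq_one P g hg h1,
    ← AlgEquiv.mul_apply, ← map_mul, mul_inv_cancel, map_one, AlgEquiv.one_apply]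

/-- The right cosets inside the double coset `H γ (G P)` are the `H γ g`, `g ∈ G P`. -/
theorem mk_out_eq_mk_iff_exists_mem_G (P : OnePoint K) (γ : Γ) (c : Quotient (QuotientGroup.rightRel D.H)) :
    DoubleCoset.mk D.H (D.G P) c.out = DoubleCoset.mk D.H (D.G P) γ ↔
      ∃ g ∈ D.G P, c = Quotient.mk'' (γ * g) := by
  rw [DoubleCoset.eq]
  constructor
  · rintro ⟨h, hh, k, hk, hγ⟩
    refine ⟨k⁻¹, inv_mem hk, ?_⟩
    rw [← Quotient.out_eq' c]
    apply Quotient.sound'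
    rw [QuotientGroup.rightRel_apply, hγ]
    simpa [mul_assoc] using hh
  · rintro ⟨g, hg, rfl⟩
    have h := Quotient.mk_out' (s₁ := QuotientGroup.rightRel D.H) (γ * g)
    rw [QuotientGroup.rightRel_apply] at h
    refine ⟨_, h, g⁻¹, inv_mem hg, ?_⟩
    simp [mul_assoc]

/-- `[G_P : S_γ] = e`. -/
theorem index_stab_subgroupOf (P : OnePoint K) (γ : Γ) :
    ((D.stab P γ).subgroupOf (D.G P)).index = D.e ⟨P, DoubleCoset.mk D.H (D.G P) γ⟩ := by
  let f : ↥(D.G P) → {c : Quotient (QuotientGroup.rightRel D.H) //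
      DoubleCoset.mk D.H (D.G P) c.out = DoubleCoset.mk D.H (D.G P) γ} := fun g =>
    ⟨Quotient.mk'' (γ * g), (D.mk_out_eq_mk_iff_exists_mem_G P γ _).2 ⟨g, g.2, rfl⟩⟩
  have hf : Function.Surjective f := by
    rintro ⟨c, hc⟩
    obtain ⟨g, hg, rfl⟩ := (D.mk_out_eq_mk_iff_exists_mem_G P γ c).1 hc
    exact ⟨⟨g, hg⟩, rfl⟩
  have hker : Setoid.ker f = QuotientGroup.rightRel ((D.stab P γ).subgroupOf (D.G P)) := by
    ext g g'
    rw [Setoid.ker_def, QuotientGroup.rightRel_apply, Subgroup.mem_subgroupOf, mem_stab]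
    simp only [f, Subtype.mk.injEq]
    rw [Quotient.eq'', QuotientGroup.rightRel_apply]
    have hmem : (g' : Γ) * (g : Γ)⁻¹ ∈ D.G P := mul_mem g'.2 (inv_mem g.2)
    simp [mul_assoc, hmem]
  rw [Subgroup.index, ← Nat.card_congr (QuotientGroup.quotientRightRelEquivQuotientLeftRel _),
    ← hker]
  exact Nat.card_congr (Setoid.quotientKerEquivOfSurjective f hf)

theorem coe_map_χhom (P : OnePoint K) (S : Subgroup Γ) (hS : S ≤ D.G P) :
    (((S.subgroupOf (D.G P)).map (D.χhom P) : Subgroup Kˣ) : Set Kˣ) = D.χ P '' (S : Set Γ) := by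
  ext x
  constructor
  · rintro ⟨g, hg, rfl⟩
    exact ⟨g, hg, rfl⟩
  · rintro ⟨g, hg, rfl⟩
    exact ⟨⟨g, hS hg⟩, hg, rfl⟩

theorem card_map_χhom (P : OnePoint K) (S : Subgroup Γ) (hS : S ≤ D.G P) :
    Nat.card ((S.subgroupOf (D.G P)).map (D.χhom P)) = Nat.card ↥(D.χ P '' (S : Set Γ)) :=
  Nat.card_congr (Equiv.setCongr (D.coe_map_χhom P S hS))

theorem card_range_χhom (P : OnePoint K) : Nat.card (D.χhom P).range = D.d P := by
  rw [MonoidHom.range_eq_map, ← Subgroup.subgroupOf_self, D.card_map_χhom P _ le_rfl, D.card_χ]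

/-- `e · |χ(S_γ)| = d`. -/
theorem e_mul_card (P : OnePoint K) (γ : Γ) :
    D.e ⟨P, DoubleCoset.mk D.H (D.G P) γ⟩ * Nat.card ↥((D.χ P) '' (D.stab P γ : Set Γ))
      = D.d P := by
  have hle : (D.χhom P).ker ≤ (D.stab P γ).subgroupOf (D.G P) := by
    intro g hg
    rw [Subgroup.mem_subgroupOf, mem_stab]
    exact ⟨g.2, D.mem_normalCore_of_χ_eq_one P g g.2 hg γ⟩
  have h := Subgroup.relIndex_mul_index hle
  rw [Subgroup.relIndex_ker, D.card_map_χhom P _ (D.stab_le P γ), D.index_stab_subgroupOf,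
    Subgroup.index_ker, D.card_range_χhom] at h
  rw [mul_comm]
  exact h

/-- if `χ(s)^n = 1` for all `s ∈ S_γ` then `d ∣ e · n`. -/
theorem d_dvd_e_mul_of_forall_zpow_eq_one (P : OnePoint K) (γ : Γ) (n : ℤ)
    (h : ∀ s ∈ D.stab P γ, (D.χ P s) ^ n = 1) :
    (D.d P : ℤ) ∣ (D.e ⟨P, DoubleCoset.mk D.H (D.G P) γ⟩ : ℤ) * n := by
  have hcard := D.card_map_χhom P _ (D.stab_le P γ)
  have hmul := D.e_mul_card P γ
  have hne : Nat.card (((D.stab P γ).subgroupOf (D.G P)).map (D.χhom P)) ≠ 0 := by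
    rw [hcard]
    intro h0
    rw [h0, mul_zero] at hmul
    exact (D.d_pos P).ne hmul
  have : Finite (((D.stab P γ).subgroupOf (D.G P)).map (D.χhom P)) :=
    Nat.finite_of_card_ne_zero hne
  have hdvd : (Nat.card (((D.stab P γ).subgroupOf (D.G P)).map (D.χhom P)) : ℤ) ∣ n := by
    rw [← forall_zpow_eq_one_iff_card_dvd]
    rintro x ⟨g, hg, rfl⟩
    exact h g hg
  rw [← hmul, ← hcard, Nat.cast_mul]
  exact mul_dvd_mul_left _ hdvd

/-- `χ(g)^n = 1` for all `g ∈ G P` iff `d ∣ n`. -/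
theorem forall_zpow_χ_eq_one_iff (P : OnePoint K) (n : ℤ) :
    (∀ g ∈ D.G P, (D.χ P g) ^ n = 1) ↔ (D.d P : ℤ) ∣ n := by
  have hcard := D.card_range_χhom P
  have : Finite (D.χhom P).range :=
    Nat.finite_of_card_ne_zero (by rw [hcard]; exact (D.d_pos P).ne')
  rw [← hcard, ← forall_zpow_eq_one_iff_card_dvd]
  constructor
  · rintro h x ⟨g, rfl⟩
    exact h g g.2
  · intro h g hg
    exact h _ ⟨⟨g, hg⟩, rfl⟩

end CoverDatum

end Fermat.Agent.CoverL
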