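import Mathlib

/-!
# Cover package: formal residue calculus for Laurent series over a field

`lres f` = coefficient of `w⁻¹`; `lderiv f` = formal derivative; `lrescale a` = substitution
`w ↦ a w`.  Pure algebra, independent of the rest of the package.
-/

set_option autoImplicit false

namespace Fermat.Agent.CoverL

variable {K : Type*} [Field K]

/-- the formal residue: the coefficient of `w⁻¹`. -/
def lres (f : LaurentSeries K) : K := f.coeff (-1)

/-- the formal derivative. -/
noncomputable def lderiv (f : LaurentSeries K) : LaurentSeries K := LaurentSeries.derivative K f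

/-- "`f` is a power series": no negative exponents. -/
def IsPS (f : LaurentSeries K) : Prop := ∀ n : ℤ, n < 0 → f.coeff n = 0

theorem lres_add (f g : LaurentSeries K) : lres (f + g) = lres f + lres g := by
  simp [lres]

theorem lres_smul (c : K) (f : LaurentSeries K) : lres (c • f) = c * lres f := by
  simp [lres]

theorem lres_C_mul (c : K) (f : LaurentSeries K) : lres (HahnSeries.C c * f) = c * lres f := by
  rw [HahnSeries.C_mul_eq_smul, lres_smul]

theorem coeff_lderiv (f : LaurentSeries K) (n : ℤ) :
    (lderiv f).coeff n = ((n : K) + 1) * f.coeff (n + 1) := by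
  rw [lderiv, LaurentSeries.derivative_apply, LaurentSeries.hasseDeriv_coeff, Nat.cast_one,
    Ring.choose_one_right, zsmul_eq_mul, Int.cast_add, Int.cast_one]

theorem lderiv_add (f g : LaurentSeries K) : lderiv (f + g) = lderiv f + lderiv g :=
  map_add (LaurentSeries.derivative K) f g

theorem lderiv_sub (f g : LaurentSeries K) : lderiv (f - g) = lderiv f - lderiv g :=
  map_sub (LaurentSeries.derivative K) f g

theorem lderiv_smul (c : K) (f : LaurentSeries K) : lderiv (c • f) = c • lderiv f :=
  map_smul (LaurentSeries.derivative K) c f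

theorem lderiv_C (c : K) : lderiv (HahnSeries.C c : LaurentSeries K) = 0 := by
  ext n
  rw [coeff_lderiv, HahnSeries.C_apply, HahnSeries.coeff_single, HahnSeries.coeff_zero]
  split_ifs with h
  · have h' : (n : K) + 1 = 0 := by exact_mod_cast congrArg (Int.cast : ℤ → K) h
    rw [h', zero_mul]
  · rw [mul_zero]

theorem lderiv_algebraMap (c : K) : lderiv (algebraMap K (LaurentSeries K) c) = 0 := by
  rw [LaurentSeries.algebraMap_apply, lderiv_C]

/-- derivative of a monomial times a series -/
theorem lderiv_single_mul (n : ℤ) (g : LaurentSeries K) :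
    lderiv (HahnSeries.single n (1 : K) * g) =
      HahnSeries.single (n - 1) (n : K) * g + HahnSeries.single n (1 : K) * lderiv g := by
  ext m
  rw [HahnSeries.coeff_add, coeff_lderiv, HahnSeries.coeff_single_mul, HahnSeries.coeff_single_mul,
    HahnSeries.coeff_single_mul, coeff_lderiv]
  have e1 : m - (n - 1) = m + 1 - n := by ring
  have e2 : m - n + 1 = m + 1 - n := by ring
  rw [e1, e2]
  push_cast
  ring

/-- the derivative of (the image of) a power series -/
theorem lderiv_ofPowerSeries (p : PowerSeries K) :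
    lderiv (HahnSeries.ofPowerSeries ℤ K p) =
      HahnSeries.ofPowerSeries ℤ K (PowerSeries.derivative K p) := by
  ext m
  rw [coeff_lderiv, PowerSeries.coeff_coe, PowerSeries.coeff_coe]
  rcases lt_trichotomy m (-1) with h | h | h
  · rw [if_pos (by omega), if_pos (by omega), mul_zero]
  · subst h
    simp
  · rw [if_neg (by omega), if_neg (by omega), PowerSeries.coeff_derivative]
    have e1 : (m + 1).natAbs = m.natAbs + 1 := by omega
    have e2 : ((m.natAbs : ℕ) : K) = (m : K) := by
      have : ((m.natAbs : ℕ) : ℤ) = m := by omega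
      rw [← Int.cast_natCast, this]
    rw [e1, e2]
    ring

/-- Leibniz rule -/
theorem lderiv_mul (f g : LaurentSeries K) : lderiv (f * g) = lderiv f * g + f * lderiv g := by
  obtain ⟨a, p, rfl⟩ : ∃ (a : ℤ) (p : PowerSeries K),
      f = HahnSeries.single a (1 : K) * HahnSeries.ofPowerSeries ℤ K p :=
    ⟨_, _, (LaurentSeries.single_order_mul_powerSeriesPart f).symm⟩
  obtain ⟨b, q, rfl⟩ : ∃ (b : ℤ) (q : PowerSeries K),
      g = HahnSeries.single b (1 : K) * HahnSeries.ofPowerSeries ℤ K q :=
    ⟨_, _, (LaurentSeries.single_order_mul_powerSeriesPart g).symm⟩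
  have e1 : HahnSeries.single a (1 : K) * HahnSeries.ofPowerSeries ℤ K p *
      (HahnSeries.single b (1 : K) * HahnSeries.ofPowerSeries ℤ K q) =
      HahnSeries.single a (1 : K) * (HahnSeries.single b (1 : K) *
        HahnSeries.ofPowerSeries ℤ K (p * q)) := by
    rw [map_mul]; ring
  rw [e1, lderiv_single_mul, lderiv_single_mul, lderiv_single_mul, lderiv_single_mul,
    lderiv_ofPowerSeries, lderiv_ofPowerSeries, lderiv_ofPowerSeries, Derivation.leibniz,
    map_add, smul_eq_mul, smul_eq_mul, map_mul, map_mul, map_mul]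
  ring

theorem lderiv_one : lderiv (1 : LaurentSeries K) = 0 := by
  rw [← map_one (HahnSeries.C : K →+* LaurentSeries K), lderiv_C]

theorem lderiv_inv {f : LaurentSeries K} (hf : f ≠ 0) :
    lderiv f⁻¹ = -(lderiv f * f⁻¹ * f⁻¹) := by
  have h1 : f * f⁻¹ = 1 := mul_inv_cancel₀ hf
  have h2 : lderiv (f * f⁻¹) = 0 := by rw [h1, lderiv_one]
  rw [lderiv_mul] at h2
  linear_combination f⁻¹ * h2 - lderiv f⁻¹ * h1

theorem lderiv_zpow {f : LaurentSeries K} (hf : f ≠ 0) (n : ℤ) :
    lderiv (f ^ n) = (n : LaurentSeries K) * f ^ (n - 1) * lderiv f := by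
  have h1 : f * f⁻¹ = 1 := mul_inv_cancel₀ hf
  induction n using Int.induction_on with
  | zero => simp [lderiv_one]
  | succ i ih =>
    rw [zpow_add_one₀ hf, lderiv_mul, ih, add_sub_cancel_right, zpow_sub_one₀ hf]
    push_cast
    linear_combination ((i : LaurentSeries K) * f ^ (i : ℤ) * lderiv f) * h1
  | pred i ih =>
    rw [zpow_sub_one₀ hf (-(i : ℤ) - 1), zpow_sub_one₀ hf (-(i : ℤ)), lderiv_mul, ih,
      zpow_sub_one₀ hf, lderiv_inv hf]
    push_cast
    ring

/-- the residue of a derivative vanishes -/
theorem lres_lderiv (f : LaurentSeries K) : lres (lderiv f) = 0 := by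
  rw [lres, coeff_lderiv]
  simp

/-- logarithmic residue -/
theorem lres_inv_mul_lderiv {f : LaurentSeries K} (hf : f ≠ 0) :
    lres (f⁻¹ * lderiv f) = (f.order : K) := by
  set m : ℤ := f.order with hm
  set p : PowerSeries K := LaurentSeries.powerSeriesPart f with hp
  have hf' : f = HahnSeries.single m (1 : K) * HahnSeries.ofPowerSeries ℤ K p :=
    (LaurentSeries.single_order_mul_powerSeriesPart f).symm
  have hp0 : PowerSeries.constantCoeff p ≠ 0 := by
    rw [← PowerSeries.coeff_zero_eq_constantCoeff_apply, hp, LaurentSeries.powerSeriesPart_coeff]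
    simpa using HahnSeries.coeff_order_eq_zero.not.mpr hf
  have hpp : HahnSeries.ofPowerSeries ℤ K p * HahnSeries.ofPowerSeries ℤ K p⁻¹ = 1 := by
    rw [← map_mul, PowerSeries.mul_inv_cancel p hp0, map_one]
  have hss : HahnSeries.single m (1 : K) * HahnSeries.single (-m) (1 : K) = 1 := by
    rw [HahnSeries.single_mul_single, add_neg_cancel, mul_one]; rfl
  have hinv : f⁻¹ = HahnSeries.single (-m) (1 : K) * HahnSeries.ofPowerSeries ℤ K p⁻¹ := by
    apply inv_eq_of_mul_eq_one_right
    rw [hf']
    linear_combination hpp * (HahnSeries.single m (1 : K) * HahnSeries.single (-m) (1 : K)) + hss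
  have hs1 : HahnSeries.single (m - 1) (m : K) * HahnSeries.single (-m) (1 : K) =
      HahnSeries.single (-1) (m : K) := by
    have e : m - 1 + -m = -1 := by ring
    rw [HahnSeries.single_mul_single, mul_one, e]
  have key : f⁻¹ * lderiv f = HahnSeries.single (-1) (m : K) +
      HahnSeries.ofPowerSeries ℤ K (p⁻¹ * PowerSeries.derivative K p) := by
    rw [hinv]
    conv_lhs => rw [hf']
    rw [lderiv_single_mul, lderiv_ofPowerSeries, map_mul]
    linear_combination hpp * (HahnSeries.single (m - 1) (m : K) * HahnSeries.single (-m) (1 : K))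
      + hs1 + hss * (HahnSeries.ofPowerSeries ℤ K p⁻¹ *
        HahnSeries.ofPowerSeries ℤ K (PowerSeries.derivative K p))
  rw [key, lres_add, lres, lres, HahnSeries.coeff_single_same, PowerSeries.coeff_coe,
    if_pos (by norm_num), add_zero]

theorem lres_eq_zero_of_lt_order {f : LaurentSeries K} (h : -1 < f.order) : lres f = 0 :=
  HahnSeries.coeff_eq_zero_of_lt_order h

theorem lres_mul_eq_zero_of_lt {f g : LaurentSeries K} (h : -1 < f.order + g.order) :
    lres (f * g) = 0 := by
  by_cases hf : f = 0
  · simp [hf, lres]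
  by_cases hg : g = 0
  · simp [hg, lres]
  apply lres_eq_zero_of_lt_order
  rwa [HahnSeries.order_mul hf hg]

theorem lres_mul_of_order_add_eq {f g : LaurentSeries K} (h : f.order + g.order = -1) :
    lres (f * g) = f.coeff f.order * g.coeff g.order := by
  rw [lres, ← h, HahnSeries.coeff_mul_order_add_order, HahnSeries.leadingCoeff_eq,
    HahnSeries.leadingCoeff_eq]

section CharZero

variable [CharZero K]

theorem lres_zpow_mul_lderiv {f : LaurentSeries K} (hf : f ≠ 0) (n : ℤ) (hn : n ≠ -1) :
    lres (f ^ n * lderiv f) = 0 := by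
  have hC : ((n + 1 : ℤ) : LaurentSeries K) = HahnSeries.C ((n + 1 : ℤ) : K) :=
    (map_intCast (HahnSeries.C : K →+* LaurentSeries K) (n + 1)).symm
  have h1 : lderiv (f ^ (n + 1)) = HahnSeries.C ((n + 1 : ℤ) : K) * (f ^ n * lderiv f) := by
    rw [lderiv_zpow hf, add_sub_cancel_right, hC, mul_assoc]
  have h2 := lres_lderiv (f ^ (n + 1))
  rw [h1, lres_C_mul] at h2
  rcases mul_eq_zero.mp h2 with h | h
  · exfalso
    apply hn
    have : n + 1 = 0 := by exact_mod_cast h
    omega
  · exact h

set_option linter.unusedSectionVars false in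
theorem coeff_lderiv_order (f : LaurentSeries K) :
    (lderiv f).coeff (f.order - 1) = (f.order : K) * f.coeff f.order := by
  rw [coeff_lderiv, sub_add_cancel]
  push_cast
  ring

theorem order_lderiv {f : LaurentSeries K} (hf : f.order ≠ 0) :
    (lderiv f).order = f.order - 1 := by
  have hf0 : f ≠ 0 := by
    rintro rfl
    exact hf HahnSeries.order_zero
  have hc : (lderiv f).coeff (f.order - 1) ≠ 0 := by
    rw [coeff_lderiv_order]
    exact mul_ne_zero (by exact_mod_cast hf) (HahnSeries.coeff_order_eq_zero.not.mpr hf0)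
  have hd0 : lderiv f ≠ 0 := by
    intro h0
    rw [h0] at hc
    exact hc rfl
  apply le_antisymm (HahnSeries.order_le_of_coeff_ne_zero hc)
  rw [HahnSeries.le_order_iff_forall hd0]
  intro j hj
  rw [coeff_lderiv, HahnSeries.coeff_eq_zero_of_lt_order (by omega), mul_zero]

/-- if `f - c` has positive order then `lderiv f` has order `order (f - c) - 1` -/
theorem order_lderiv_of_sub_C {f : LaurentSeries K} (c : K)
    (h : 0 < (f - HahnSeries.C c).order) : (lderiv f).order = (f - HahnSeries.C c).order - 1 := by
  have h1 : lderiv f = lderiv (f - HahnSeries.C c) := by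
    rw [lderiv_sub, lderiv_C, sub_zero]
  rw [h1]
  exact order_lderiv h.ne'

end CharZero

end Fermat.Agent.CoverL
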