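import Fermat.Agent.Cover.CharPoly

/-!
# Cover package: the `PreCurve` structure on `F = 𝔉^H`
-/

set_option autoImplicit false

open scoped IntermediateField

namespace Fermat.Agent.CoverL

open Fermat.Agent.RRL

namespace CoverDatum

variable {K : Type*} [Field K] [IsAlgClosed K] [CharZero K] {𝔉 : Type*} [Field 𝔉] [Algebra K 𝔉]
  {Γ : Type*} [Group Γ] (D : CoverDatum K 𝔉 Γ)

/-- The valuations of `F = 𝔉^H` at the points `H γ (G P)`:
`ord ⟨P, H γ G_P⟩ x = e * order (T P (ρ γ⁻¹ x)) / d P`. -/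
noncomputable def preCurve : PreCurve K D.F D.Pt where
  ord := D.ordAt
  ord_mul := fun p _ _ hx hy => D.ordAt_mul p hx hy
  ord_add := fun p _ _ hx hy hxy => D.ordAt_add p hx hy hxy
  ord_algebraMap := fun p _ hc => D.ordAt_algebraMap p hc
  exists_residue := fun p _ hx h => D.ordAt_exists_residue p hx h
  finite_support := fun hx => D.finite_support_ordAt hx
  const_of_nonneg := fun hx h => D.const_of_ordAt_nonneg hx h

theorem preCurve_ord (p : D.Pt) (x : D.F) : D.preCurve.ord p x = D.ordAt p x := rfl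

theorem ord_spec (x : D.F) (hx : x ≠ 0) (P : OnePoint K) (γ : Γ) :
    (D.d P : ℤ) * D.preCurve.ord ⟨P, DoubleCoset.mk D.H (D.G P) γ⟩ x
      = (D.e ⟨P, DoubleCoset.mk D.H (D.G P) γ⟩ : ℤ) * (D.T P (D.ρ γ⁻¹ (x : 𝔉))).order :=
  D.d_mul_ordAt P γ x

end CoverDatum

end Fermat.Agent.CoverL
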