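import Fermat.Agent.Cover.PreCurve

/-!
# Cover package: the divisor `W = div(dj)`, its degree, and the space `L(W)`
-/

set_option autoImplicit false

open scoped IntermediateField

namespace Fermat.Agent.CoverL

open Fermat.Agent.RRL

namespace CoverDatum

variable {K : Type*} [Field K] {𝔉 : Type*} [Field 𝔉] [Algebra K 𝔉] {Γ : Type*} [Group Γ]
  (D : CoverDatum K 𝔉 Γ)

open scoped Classical in
/-- the function underlying `W`: `e - 1` at finite points, `-e - 1` above `∞`. -/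
noncomputable def Wfun (p : D.Pt) : ℤ :=
  if p.1 = OnePoint.infty then -(D.e p : ℤ) - 1 else (D.e p : ℤ) - 1

/-- the points of the curve above a finite set of points of the base form a finite set. -/
theorem W_finite_setOf_fst_mem {S : Set (OnePoint K)} (hS : S.Finite) :
    {p : D.Pt | p.1 ∈ S}.Finite := by
  have hsub : {p : D.Pt | p.1 ∈ S} ⊆ ⋃ P ∈ S, Set.range (fun q => (⟨P, q⟩ : D.Pt)) := by
    rintro ⟨P, q⟩ hp
    exact Set.mem_biUnion hp ⟨q, rfl⟩
  refine (Set.Finite.biUnion hS fun P _ => ?_).subset hsub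
  have := D.finite_dcQuot P
  exact Set.finite_range _

theorem finite_support_Wfun : (Function.support D.Wfun).Finite := by
  have h1 : {p : D.Pt | p.1 ∈ ({OnePoint.infty} : Set (OnePoint K))}.Finite :=
    D.W_finite_setOf_fst_mem (Set.finite_singleton _)
  have h2 : {p : D.Pt | p.1 ∈ {P : OnePoint K | ¬ D.G P ≤ D.H.normalCore}}.Finite :=
    D.W_finite_setOf_fst_mem D.finite_ram
  refine (h1.union h2).subset ?_
  rintro ⟨P, q⟩ hp
  by_contra hcon
  have h1' : P ≠ OnePoint.infty := fun h => hcon (Or.inl h)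
  have h2' : D.G P ≤ D.H.normalCore := by
    by_contra h
    exact hcon (Or.inr h)
  have he := D.e_eq_one_of_le_normalCore P h2' q
  have hW : D.Wfun ⟨P, q⟩ = (D.e ⟨P, q⟩ : ℤ) - 1 := if_neg h1'
  exact hp (by rw [hW, he]; simp)

/-- the divisor of the differential `dj`: `e - 1` at finite points, `-e - 1` above `∞`. -/
noncomputable def W : D.Pt →₀ ℤ :=
  Finsupp.ofSupportFinite D.Wfun D.finite_support_Wfun

theorem W_apply (p : D.Pt) : D.W p = D.Wfun p := rfl

theorem W_coe (c : K) (q : DoubleCoset.Quotient (D.H : Set Γ) (D.G (c : OnePoint K) : Set Γ)) :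
    D.W ⟨(c : OnePoint K), q⟩ = (D.e ⟨(c : OnePoint K), q⟩ : ℤ) - 1 := by
  exact if_neg (OnePoint.coe_ne_infty c)

theorem W_infty (q : DoubleCoset.Quotient (D.H : Set Γ) (D.G OnePoint.infty : Set Γ)) :
    D.W ⟨OnePoint.infty, q⟩ = -(D.e ⟨OnePoint.infty, q⟩ : ℤ) - 1 := by
  exact if_pos rfl

/-- a finitely supported sum over `OnePoint K` is the term at `∞` plus the sum over `K`. -/
theorem W_finsum_onePoint {X M : Type*} [AddCommMonoid M] (g : OnePoint X → M)
    (hg : (Function.support g).Finite) :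
    ∑ᶠ P, g P = g OnePoint.infty + ∑ᶠ c : X, g (c : OnePoint X) := by
  rw [← finsum_mem_univ, ← OnePoint.insert_infty_range_coe,
    finsum_mem_insert' _ OnePoint.infty_notMem_range_coe (hg.subset Set.inter_subset_right),
    finsum_mem_range OnePoint.coe_injective]

/-- the sum of `e - 1` over the fibre above `P`. -/
theorem W_finsum_e_sub_one (P : OnePoint K) :
    ∑ᶠ q : DoubleCoset.Quotient (D.H : Set Γ) (D.G P : Set Γ), ((D.e ⟨P, q⟩ : ℤ) - 1)
      = (D.H.index : ℤ)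
        - (Nat.card (DoubleCoset.Quotient (D.H : Set Γ) (D.G P : Set Γ)) : ℤ) := by
  have := D.finite_dcQuot P
  let := Fintype.ofFinite (DoubleCoset.Quotient (D.H : Set Γ) (D.G P : Set Γ))
  rw [← D.finsum_e P, Nat.cast_finsum, finsum_eq_sum_of_fintype, finsum_eq_sum_of_fintype,
    Finset.sum_sub_distrib, Finset.sum_const, Finset.card_univ, Nat.card_eq_fintype_card]
  simp

/-- the sum of `-e - 1` over the fibre above `P`. -/
theorem W_finsum_neg_e_sub_one (P : OnePoint K) :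
    ∑ᶠ q : DoubleCoset.Quotient (D.H : Set Γ) (D.G P : Set Γ), (-(D.e ⟨P, q⟩ : ℤ) - 1)
      = -(D.H.index : ℤ)
        - (Nat.card (DoubleCoset.Quotient (D.H : Set Γ) (D.G P : Set Γ)) : ℤ) := by
  have := D.finite_dcQuot P
  let := Fintype.ofFinite (DoubleCoset.Quotient (D.H : Set Γ) (D.G P : Set Γ))
  rw [← D.finsum_e P, Nat.cast_finsum, finsum_eq_sum_of_fintype, finsum_eq_sum_of_fintype,
    Finset.sum_sub_distrib, Finset.sum_neg_distrib, Finset.sum_const, Finset.card_univ,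
    Nat.card_eq_fintype_card]
  simp

theorem deg_W_eq_finsum : PreCurve.deg D.W = ∑ᶠ p : D.Pt, D.Wfun p := by
  rw [PreCurve.deg, Finsupp.sum, finsum_eq_sum_of_support_subset (s := D.W.support)]
  · rfl
  · exact (Finsupp.fun_support_eq D.W).le

/-- the degree of `W` (Riemann–Hurwitz). -/
theorem deg_W :
    PreCurve.deg D.W
      = (∑ᶠ c : K, ((D.H.index : ℤ)
            - (Nat.card (DoubleCoset.Quotient (D.H : Set Γ) (D.G (c : OnePoint K) : Set Γ)) : ℤ)))
        - (D.H.index : ℤ)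
        - (Nat.card (DoubleCoset.Quotient (D.H : Set Γ) (D.G OnePoint.infty : Set Γ)) : ℤ) := by
  have hfin : (Function.support fun P : OnePoint K =>
      ∑ᶠ q : DoubleCoset.Quotient (D.H : Set Γ) (D.G P : Set Γ),
        D.Wfun ⟨P, q⟩).Finite := by
    refine (D.finite_support_Wfun.image Sigma.fst).subset ?_
    intro P hP
    by_contra hcon
    refine hP (finsum_eq_zero_of_forall_eq_zero fun q => ?_)
    by_contra hq
    exact hcon ⟨⟨P, q⟩, hq, rfl⟩
  have hinf : ∑ᶠ q : DoubleCoset.Quotient (D.H : Set Γ) (D.G OnePoint.infty : Set Γ),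
      D.Wfun ⟨OnePoint.infty, q⟩ = -(D.H.index : ℤ)
        - (Nat.card (DoubleCoset.Quotient (D.H : Set Γ) (D.G OnePoint.infty : Set Γ)) : ℤ) := by
    rw [← D.W_finsum_neg_e_sub_one]
    exact finsum_congr fun q => D.W_infty q
  have hcoe : ∀ c : K,
      ∑ᶠ q : DoubleCoset.Quotient (D.H : Set Γ) (D.G (c : OnePoint K) : Set Γ),
        D.Wfun ⟨(c : OnePoint K), q⟩ = (D.H.index : ℤ) - (Nat.card
          (DoubleCoset.Quotient (D.H : Set Γ) (D.G (c : OnePoint K) : Set Γ)) : ℤ) := by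
    intro c
    rw [← D.W_finsum_e_sub_one]
    exact finsum_congr fun q => D.W_coe c q
  rw [D.deg_W_eq_finsum, D.finsum_Pt D.Wfun D.finite_support_Wfun, W_finsum_onePoint _ hfin, hinf,
    finsum_congr hcoe]
  ring

/-- the arithmetic behind the comparison lemmas: with `d = e * m` and `d * k = e * o` one has
`m > 0` and `o = m * k`. -/
theorem W_exists_mul_eq (P : OnePoint K) (γ : Γ) (x : D.F) :
    ∃ m : ℤ, 0 < m ∧
      (D.d P : ℤ) = (D.e ⟨P, DoubleCoset.mk D.H (D.G P) γ⟩ : ℤ) * m ∧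
      D.ordT P γ (x : 𝔉) = m * D.ordAt ⟨P, DoubleCoset.mk D.H (D.G P) γ⟩ x := by
  have hd : (0 : ℤ) < D.d P := by exact_mod_cast D.d_pos P
  have he : (0 : ℤ) < D.e ⟨P, DoubleCoset.mk D.H (D.G P) γ⟩ := by exact_mod_cast D.e_pos _
  have hem : (D.d P : ℤ) = (D.e ⟨P, DoubleCoset.mk D.H (D.G P) γ⟩ : ℤ)
      * (Nat.card ↥((D.χ P) '' (D.stab P γ : Set Γ)) : ℤ) := by
    exact_mod_cast (D.e_mul_card P γ).symm
  refine ⟨(Nat.card ↥((D.χ P) '' (D.stab P γ : Set Γ)) : ℤ), ?_, hem, ?_⟩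
  · rw [hem] at hd
    exact pos_of_mul_pos_right hd he.le
  · have h := D.d_mul_ordAt P γ x
    rw [hem, mul_assoc] at h
    exact (mul_left_cancel₀ he.ne' h).symm

/-- `-W p ≤ ordAt p x` at a finite point, in terms of the raw order -/
theorem neg_W_le_ordAt_coe_iff (c : K) (γ : Γ) (x : D.F) :
    -D.W ⟨(c : OnePoint K), DoubleCoset.mk D.H (D.G (c : OnePoint K)) γ⟩
        ≤ D.ordAt ⟨(c : OnePoint K), DoubleCoset.mk D.H (D.G (c : OnePoint K)) γ⟩ x
      ↔ -(D.d (c : OnePoint K) : ℤ) < D.ordT (c : OnePoint K) γ (x : 𝔉) := by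
  obtain ⟨m, hm, hd, ho⟩ := D.W_exists_mul_eq (c : OnePoint K) γ x
  rw [W_coe, hd, ho, mul_comm _ m, ← mul_neg, mul_lt_mul_iff_right₀ hm]
  constructor <;> intro h <;> omega

/-- `-W p ≤ ordAt p x` at a point above `∞`, in terms of the raw order -/
theorem neg_W_le_ordAt_infty_iff (γ : Γ) (x : D.F) :
    -D.W ⟨OnePoint.infty, DoubleCoset.mk D.H (D.G OnePoint.infty) γ⟩
        ≤ D.ordAt ⟨OnePoint.infty, DoubleCoset.mk D.H (D.G OnePoint.infty) γ⟩ x
      ↔ (D.d OnePoint.infty : ℤ) < D.ordT OnePoint.infty γ (x : 𝔉) := by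
  obtain ⟨m, hm, hd, ho⟩ := D.W_exists_mul_eq OnePoint.infty γ x
  rw [W_infty, hd, ho, mul_comm _ m, mul_lt_mul_iff_right₀ hm]
  constructor <;> intro h <;> omega

/-- `ordAt p x = -W p - 1` at a finite point, in terms of the raw order -/
theorem ordAt_eq_neg_W_sub_one_coe_iff (c : K) (γ : Γ) (x : D.F) :
    D.ordAt ⟨(c : OnePoint K), DoubleCoset.mk D.H (D.G (c : OnePoint K)) γ⟩ x
        = -D.W ⟨(c : OnePoint K), DoubleCoset.mk D.H (D.G (c : OnePoint K)) γ⟩ - 1
      ↔ D.ordT (c : OnePoint K) γ (x : 𝔉) = -(D.d (c : OnePoint K) : ℤ) := by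
  obtain ⟨m, hm, hd, ho⟩ := D.W_exists_mul_eq (c : OnePoint K) γ x
  rw [W_coe, hd, ho, mul_comm _ m, ← mul_neg, mul_right_inj' hm.ne']
  constructor <;> intro h <;> omega

/-- `ordAt p x = -W p - 1` at a point above `∞`, in terms of the raw order -/
theorem ordAt_eq_neg_W_sub_one_infty_iff (γ : Γ) (x : D.F) :
    D.ordAt ⟨OnePoint.infty, DoubleCoset.mk D.H (D.G OnePoint.infty) γ⟩ x
        = -D.W ⟨OnePoint.infty, DoubleCoset.mk D.H (D.G OnePoint.infty) γ⟩ - 1
      ↔ D.ordT OnePoint.infty γ (x : 𝔉) = (D.d OnePoint.infty : ℤ) := by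
  obtain ⟨m, hm, hd, ho⟩ := D.W_exists_mul_eq OnePoint.infty γ x
  rw [W_infty, hd, ho, mul_comm _ m, mul_right_inj' hm.ne']
  constructor <;> intro h <;> omega

section AlgClosed

variable [IsAlgClosed K] [CharZero K]

set_option linter.unusedSectionVars false in
/-- membership in `L(W)` in terms of local expansions: `x dj` is holomorphic everywhere. -/
theorem mem_L_W_iff (x : D.F) :
    x ∈ D.preCurve.L D.W ↔
      x = 0 ∨ ((∀ (c : K) (γ : Γ),
          -(D.d (c : OnePoint K) : ℤ) < (D.T (c : OnePoint K) (D.ρ γ⁻¹ (x : 𝔉))).order) ∧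
        (∀ γ : Γ, (D.d OnePoint.infty : ℤ) < (D.T OnePoint.infty (D.ρ γ⁻¹ (x : 𝔉))).order)) := by
  rw [PreCurve.mem_L]
  refine or_congr Iff.rfl ⟨fun h => ⟨fun c γ => ?_, fun γ => ?_⟩, ?_⟩
  · exact (D.neg_W_le_ordAt_coe_iff c γ x).1 (h _)
  · exact (D.neg_W_le_ordAt_infty_iff γ x).1 (h _)
  · rintro ⟨h1, h2⟩ ⟨P, q⟩
    obtain ⟨γ, rfl⟩ : ∃ γ : Γ, DoubleCoset.mk D.H (D.G P) γ = q :=
      ⟨q.out, DoubleCoset.out_eq' _ _ q⟩
    induction P using OnePoint.rec with
    | infty => exact (D.neg_W_le_ordAt_infty_iff γ x).2 (h2 γ)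
    | coe c => exact (D.neg_W_le_ordAt_coe_iff c γ x).2 (h1 c γ)

end AlgClosed

end CoverDatum

end Fermat.Agent.CoverL
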