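import Fermat.Agent.Cover.ResLine
import Fermat.Agent.Cover.W

/-!
# Cover package: the residue system of the differential `dj` on the curve
-/

set_option autoImplicit false

open scoped IntermediateField

namespace Fermat.Agent.CoverL

open Fermat.Agent.RRL

namespace CoverDatum

variable {K : Type*} [Field K] {𝔉 : Type*} [Field 𝔉] [Algebra K 𝔉] {Γ : Type*} [Group Γ]
  (D : CoverDatum K 𝔉 Γ)

/-- the residue at the point `p = ⟨P, H γ G_P⟩` of the differential `x dj`: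
`(e / d) · rawRes P (ρ γ⁻¹ x)`. -/
noncomputable def resAt (p : D.Pt) : D.F →ₗ[K] K where
  toFun x := ((D.e p : K) / (D.d p.1 : K)) * D.rawRes p.1 (D.ρ p.2.out⁻¹ (x : 𝔉))
  map_add' := by
    intro x y
    rw [IntermediateField.coe_add, map_add, map_add, mul_add]
  map_smul' := by
    intro c x
    rw [IntermediateField.coe_smul, map_smul, map_smul, RingHom.id_apply, smul_eq_mul,
      smul_eq_mul, mul_left_comm]

theorem resAt_apply (p : D.Pt) (x : D.F) :
    D.resAt p x = ((D.e p : K) / (D.d p.1 : K)) * D.rawRes p.1 (D.ρ p.2.out⁻¹ (x : 𝔉)) := rfl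

/-- the raw residue of `ρ γ⁻¹ x`, `x ∈ F`, only depends on the double coset `H γ G_P` -/
theorem rawRes_ρ_inv_mul_mul (P : OnePoint K) (γ h g : Γ) (hh : h ∈ D.H) (hg : g ∈ D.G P)
    {x : 𝔉} (hx : x ∈ D.F) :
    D.rawRes P (D.ρ (h * γ * g)⁻¹ x) = D.rawRes P (D.ρ γ⁻¹ x) := by
  have h1 : D.ρ (h * γ * g)⁻¹ x = D.ρ g⁻¹ (D.ρ γ⁻¹ x) := by
    rw [mul_inv_rev, mul_inv_rev, map_mul, map_mul, AlgEquiv.mul_apply, AlgEquiv.mul_apply,
      (D.mem_F x).1 hx h⁻¹ (D.H.inv_mem hh)]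
  rw [h1, D.rawRes_ρ P g⁻¹ ((D.G P).inv_mem hg)]

theorem resAt_mk (P : OnePoint K) (γ : Γ) (x : D.F) :
    D.resAt ⟨P, DoubleCoset.mk D.H (D.G P) γ⟩ x
      = ((D.e ⟨P, DoubleCoset.mk D.H (D.G P) γ⟩ : K) / (D.d P : K))
          * D.rawRes P (D.ρ γ⁻¹ (x : 𝔉)) := by
  obtain ⟨h, k, hh, hk, hout⟩ := DoubleCoset.mk_out_eq_mul D.H (D.G P) γ
  refine (D.resAt_apply _ x).trans ?_
  dsimp only
  rw [hout, D.rawRes_ρ_inv_mul_mul P γ h k hh hk x.2]

/-- the residues above `P` add up to the residue of the trace -/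
theorem finsum_resAt_fiber (P : OnePoint K) (x : D.F) :
    ∑ᶠ q : DoubleCoset.Quotient (D.H : Set Γ) (D.G P : Set Γ), D.resAt ⟨P, q⟩ x
      = ((D.d P : K))⁻¹ * D.rawRes P (D.tr (x : 𝔉)) := by
  have := D.finite_rightQuot
  have h1 : D.rawRes P (D.tr (x : 𝔉))
      = ∑ᶠ c : Quotient (QuotientGroup.rightRel D.H), D.rawRes P (D.ρ (c.out)⁻¹ (x : 𝔉)) := by
    unfold tr
    exact map_finsum (D.rawRes P) (Set.toFinite _)
  rw [h1, D.finsum_rightQuot_eq P (fun γ => D.rawRes P (D.ρ γ⁻¹ (x : 𝔉)))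
    (fun γ h g hh hg => D.rawRes_ρ_inv_mul_mul P γ h g hh hg x.2), mul_finsum]
  refine finsum_congr fun q => ?_
  refine (D.resAt_apply _ x).trans ?_
  dsimp only
  rw [nsmul_eq_mul, div_eq_mul_inv]
  ring

section CharZero

variable [CharZero K]

set_option linter.unusedVariables false in
theorem resAt_eq_zero (p : D.Pt) {x : D.F} (hx : x ≠ 0) (h : -D.W p ≤ D.ordAt p x) :
    D.resAt p x = 0 := by
  obtain ⟨P, q⟩ := p
  obtain ⟨γ, rfl⟩ : ∃ γ, DoubleCoset.mk D.H (D.G P) γ = q := ⟨q.out, DoubleCoset.out_eq' _ _ q⟩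
  rw [resAt_mk]
  induction P using OnePoint.rec with
  | infty =>
    rw [D.neg_W_le_ordAt_infty_iff] at h
    rw [D.rawRes_eq_zero_infty _ h, mul_zero]
  | coe c =>
    rw [D.neg_W_le_ordAt_coe_iff] at h
    rw [D.rawRes_eq_zero_coe c _ h, mul_zero]

theorem resAt_ne_zero (p : D.Pt) {x : D.F} (hx : x ≠ 0) (h : D.ordAt p x = -D.W p - 1) :
    D.resAt p x ≠ 0 := by
  obtain ⟨P, q⟩ := p
  obtain ⟨γ, rfl⟩ : ∃ γ, DoubleCoset.mk D.H (D.G P) γ = q := ⟨q.out, DoubleCoset.out_eq' _ _ q⟩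
  have hx' : D.ρ γ⁻¹ (x : 𝔉) ≠ 0 :=
    (EmbeddingLike.map_ne_zero_iff (f := D.ρ γ⁻¹)).2 (fun h0 => hx (Subtype.ext h0))
  rw [resAt_mk]
  refine mul_ne_zero (div_ne_zero (Nat.cast_ne_zero.2 (D.e_pos _).ne')
    (Nat.cast_ne_zero.2 (D.d_pos _).ne')) ?_
  induction P using OnePoint.rec with
  | infty =>
    rw [D.ordAt_eq_neg_W_sub_one_infty_iff] at h
    exact D.rawRes_ne_zero_infty _ hx' h
  | coe c =>
    rw [D.ordAt_eq_neg_W_sub_one_coe_iff] at h
    exact D.rawRes_ne_zero_coe c _ hx' h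

variable [IsAlgClosed K]

theorem finite_support_resAt (x : D.F) : (Function.support fun p : D.Pt => D.resAt p x).Finite := by
  by_cases hx : x = 0
  · subst hx
    simp
  · refine ((D.W.support.finite_toSet).union (D.finite_support_ordAt hx)).subset ?_
    intro p hp
    by_contra hcon
    have hW : D.W p = 0 := by
      by_contra hW
      exact hcon (Or.inl (Finsupp.mem_support_iff.2 hW))
    have hO : D.ordAt p x = 0 := by
      by_contra hO
      exact hcon (Or.inr hO)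
    refine hp (D.resAt_eq_zero p hx ?_)
    rw [hW, hO, neg_zero]

/-- the residue theorem on the curve -/
theorem finsum_resAt (x : D.F) : ∑ᶠ p : D.Pt, D.resAt p x = 0 := by
  rw [D.finsum_Pt (fun p => D.resAt p x) (D.finite_support_resAt x),
    ← (D.finsum_rawRes_adjoin (D.tr_mem_adjoin x.2)).2]
  exact finsum_congr fun P => D.finsum_resAt_fiber P x

end CharZero

end CoverDatum

end Fermat.Agent.CoverL
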