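import Fermat.Agent.Cover.Defs
import Fermat.Agent.RR.Main
import Fermat.Agent.Cover.PreCurve
import Fermat.Agent.Cover.Count
import Fermat.Agent.Cover.W
import Fermat.Agent.Cover.Residue

/-!
# From a cover datum to a curve with a residue system

The interface statements fixed by lead.  `preCurve`, `ord_spec` live in `Cover/PreCurve.lean`;
`W`, `W_coe`, `W_infty`, `deg_W`, `mem_L_W_iff` in `Cover/W.lean`; `exists_curve` in
`Cover/Count.lean`; this file adds `residueSystem` and `two_mul_finrank_L`.
-/

set_option autoImplicit false

open scoped IntermediateField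

namespace Fermat.Agent.CoverL

open Fermat.Agent.RRL

namespace CoverDatum

variable {K : Type*} [Field K] [IsAlgClosed K] [CharZero K] {𝔉 : Type*} [Field 𝔉] [Algebra K 𝔉]
  {Γ : Type*} [Group Γ] (D : CoverDatum K 𝔉 Γ)

/-- local residues of the differential `x dj`; residue theorem via the trace to `K(j)`. -/
noncomputable def residueSystem : ResidueSystem D.preCurve D.W where
  res := D.resAt
  res_eq_zero := fun p _ hx h => D.resAt_eq_zero p hx h
  res_ne_zero := fun p _ hx h => D.resAt_ne_zero p hx h
  sum_res := fun x => D.finsum_resAt x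

/-- Riemann–Roch for the canonical divisor `W = div(dj)`. -/
theorem two_mul_finrank_L :
    Module.Finite K (D.preCurve.L D.W) ∧
      2 * (Module.finrank K (D.preCurve.L D.W) : ℤ) = PreCurve.deg D.W + 2 := by
  obtain ⟨C, hC⟩ := D.exists_curve
  haveI : Nonempty D.Pt := ⟨⟨OnePoint.infty, DoubleCoset.mk D.H (D.G OnePoint.infty) 1⟩⟩
  have R : ResidueSystem C.toPreCurve D.W := hC ▸ D.residueSystem
  have h := Curve.two_mul_finrank_L_of_residueSystem C D.W R
  rw [hC] at h
  exact h

end CoverDatum

end Fermat.Agent.CoverL
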