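import Fermat.Agent.Cover.GroupChi

/-!
# Cover package: the order functions `ordT` (raw) and `ordAt` (normalized)
-/

set_option autoImplicit false

namespace Fermat.Agent.CoverL

/-- two Laurent series with the same vanishing pattern of coefficients have the same order. -/
theorem ordAux_order_eq_of_coeff_iff {K : Type*} [Field K] (a b : LaurentSeries K)
    (h : ∀ n : ℤ, a.coeff n = 0 ↔ b.coeff n = 0) : a.order = b.order := by
  by_cases ha : a = 0
  · have hb : b = 0 := by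
      ext n
      exact (h n).1 (by rw [ha]; rfl)
    rw [ha, hb]
  · have hb : b ≠ 0 := by
      intro hb
      apply ha
      ext n
      exact (h n).2 (by rw [hb]; rfl)
    apply le_antisymm
    · apply HahnSeries.order_le_of_coeff_ne_zero
      intro h0
      exact HahnSeries.coeff_order_eq_zero.not.2 hb ((h _).1 h0)
    · apply HahnSeries.order_le_of_coeff_ne_zero
      intro h0
      exact HahnSeries.coeff_order_eq_zero.not.2 ha ((h _).2 h0)

/-- subtracting the constant coefficient from a power series gives a series of positive order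
(or zero). -/
theorem ordAux_order_sub_C_pos {K : Type*} [Field K] (f : LaurentSeries K)
    (hf : 0 ≤ f.order) (hne : f - HahnSeries.C (f.coeff 0) ≠ 0) :
    0 < (f - HahnSeries.C (f.coeff 0)).order := by
  by_contra h2
  push Not at h2
  apply HahnSeries.coeff_order_eq_zero.not.2 hne
  generalize (f - HahnSeries.C (f.coeff 0)).order = m at h2
  rw [HahnSeries.coeff_sub, HahnSeries.C_apply]
  rcases h2.lt_or_eq with h3 | h3
  · rw [HahnSeries.coeff_eq_zero_of_lt_order (lt_of_lt_of_le h3 hf),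
      HahnSeries.coeff_single_of_ne h3.ne, sub_zero]
  · rw [h3, HahnSeries.coeff_single_same, sub_self]

/-- the structure map `K → K((w))` is the constant-series map. -/
theorem ordAux_algebraMap_eq_C {K : Type*} [Field K] (c : K) :
    algebraMap K (LaurentSeries K) c = HahnSeries.C c := by
  rw [HahnSeries.algebraMap_apply', PowerSeries.algebraMap_apply, HahnSeries.ofPowerSeries_C]
  rfl

namespace CoverDatum

variable {K : Type*} [Field K] {𝔉 : Type*} [Field 𝔉] [Algebra K 𝔉] {Γ : Type*} [Group Γ]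
  (D : CoverDatum K 𝔉 Γ)

/-- raw order of `x` at the point `γ z_P`: the order of the expansion `T P (ρ γ⁻¹ x)`. -/
noncomputable def ordT (P : OnePoint K) (γ : Γ) (x : 𝔉) : ℤ := (D.T P (D.ρ γ⁻¹ x)).order

theorem ordT_def (P : OnePoint K) (γ : Γ) (x : 𝔉) :
    D.ordT P γ x = (D.T P (D.ρ γ⁻¹ x)).order := rfl

theorem T_ρ_ne_zero (P : OnePoint K) (γ : Γ) {x : 𝔉} (hx : x ≠ 0) : D.T P (D.ρ γ x) ≠ 0 := by
  intro h
  rw [← map_zero (D.T P)] at h
  have h2 := D.T_injective P h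
  exact hx ((D.ρ γ).injective (by rw [h2, map_zero]))

theorem ordAux_ρ_mul (a b : Γ) (x : 𝔉) : D.ρ (a * b) x = D.ρ a (D.ρ b x) := by
  rw [map_mul]; rfl

theorem ordT_mul_mul (P : OnePoint K) (γ h g : Γ) (hh : h ∈ D.H) (hg : g ∈ D.G P) (x : 𝔉)
    (hx : x ∈ D.F) : D.ordT P (h * γ * g) x = D.ordT P γ x := by
  have e1 : D.ρ (h * γ * g)⁻¹ x = D.ρ g⁻¹ (D.ρ γ⁻¹ x) := by
    rw [mul_inv_rev, mul_inv_rev, D.ordAux_ρ_mul, D.ordAux_ρ_mul, hx h⁻¹ (D.H.inv_mem hh)]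
  rw [ordT_def, ordT_def, e1]
  apply ordAux_order_eq_of_coeff_iff
  intro n
  rw [D.T_ρ P g⁻¹ ((D.G P).inv_mem hg)]
  have hu : ((D.χ P g⁻¹ : Kˣ) : K) ^ n ≠ 0 := zpow_ne_zero _ (Units.ne_zero _)
  simp [hu]

theorem ordT_out (P : OnePoint K) (γ : Γ) (x : 𝔉) (hx : x ∈ D.F) :
    D.ordT P (DoubleCoset.mk D.H (D.G P) γ).out x = D.ordT P γ x := by
  obtain ⟨h, k, hh, hk, e⟩ := DoubleCoset.mk_out_eq_mul D.H (D.G P) γ
  rw [e]
  exact D.ordT_mul_mul P γ h k hh hk x hx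

/-- integrality: the expansion of `ρ γ⁻¹ x`, `x ∈ F`, is supported on multiples of `d / e`. -/
theorem d_dvd_e_mul_of_coeff_ne_zero (P : OnePoint K) (γ : Γ) (x : 𝔉) (hx : x ∈ D.F) (n : ℤ)
    (hn : (D.T P (D.ρ γ⁻¹ x)).coeff n ≠ 0) :
    (D.d P : ℤ) ∣ (D.e ⟨P, DoubleCoset.mk D.H (D.G P) γ⟩ : ℤ) * n := by
  apply D.d_dvd_e_mul_of_forall_zpow_eq_one
  intro s hs
  rw [mem_stab] at hs
  obtain ⟨hsG, hsH⟩ := hs
  have e1 : D.ρ s (D.ρ γ⁻¹ x) = D.ρ γ⁻¹ x := by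
    have e2 : s * γ⁻¹ = γ⁻¹ * (γ * s * γ⁻¹) := by group
    rw [← D.ordAux_ρ_mul, e2, D.ordAux_ρ_mul, hx _ hsH]
  have e3 := D.T_ρ P s hsG (D.ρ γ⁻¹ x) n
  rw [e1] at e3
  have e4 : ((D.χ P s : Kˣ) : K) ^ n = 1 :=
    mul_right_cancel₀ hn (by rw [one_mul]; exact e3.symm)
  apply Units.ext
  rw [Units.val_zpow_eq_zpow_val, e4, Units.val_one]

theorem d_dvd_e_mul_ordT (P : OnePoint K) (γ : Γ) (x : 𝔉) (hx : x ∈ D.F) :
    (D.d P : ℤ) ∣ (D.e ⟨P, DoubleCoset.mk D.H (D.G P) γ⟩ : ℤ) * D.ordT P γ x := by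
  by_cases h0 : D.T P (D.ρ γ⁻¹ x) = 0
  · rw [ordT_def, h0, HahnSeries.order_zero, mul_zero]
    exact dvd_zero _
  · exact D.d_dvd_e_mul_of_coeff_ne_zero P γ x hx _ (HahnSeries.coeff_order_eq_zero.not.2 h0)

/-- the normalized order of `x ∈ F` at the point `p = ⟨P, H γ G_P⟩`: `e · ordT / d`. -/
noncomputable def ordAt (p : D.Pt) (x : D.F) : ℤ :=
  (D.e p : ℤ) * D.ordT p.1 p.2.out (x : 𝔉) / (D.d p.1 : ℤ)

theorem d_mul_ordAt (P : OnePoint K) (γ : Γ) (x : D.F) :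
    (D.d P : ℤ) * D.ordAt ⟨P, DoubleCoset.mk D.H (D.G P) γ⟩ x
      = (D.e ⟨P, DoubleCoset.mk D.H (D.G P) γ⟩ : ℤ) * D.ordT P γ (x : 𝔉) := by
  have h1 := D.d_dvd_e_mul_ordT P γ (x : 𝔉) x.2
  have h2 := D.ordT_out P γ (x : 𝔉) x.2
  unfold ordAt
  simp only
  rw [h2]
  exact Int.mul_ediv_cancel' h1

theorem d_mul_ordAt' (p : D.Pt) (x : D.F) :
    (D.d p.1 : ℤ) * D.ordAt p x = (D.e p : ℤ) * D.ordT p.1 p.2.out (x : 𝔉) := by
  obtain ⟨P, q⟩ := p
  have h := D.d_mul_ordAt P q.out x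
  rw [DoubleCoset.out_eq'] at h
  exact h

theorem ordAt_nonneg_iff (p : D.Pt) (x : D.F) :
    0 ≤ D.ordAt p x ↔ 0 ≤ D.ordT p.1 p.2.out (x : 𝔉) := by
  have h := D.d_mul_ordAt' p x
  have hd : (0 : ℤ) < D.d p.1 := by exact_mod_cast D.d_pos p.1
  have he : (0 : ℤ) < D.e p := by exact_mod_cast D.e_pos p
  constructor
  · intro h1
    by_contra h2
    push Not at h2
    nlinarith
  · intro h1
    by_contra h2
    push Not at h2
    nlinarith

theorem ordAt_pos_iff (p : D.Pt) (x : D.F) :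
    0 < D.ordAt p x ↔ 0 < D.ordT p.1 p.2.out (x : 𝔉) := by
  have h := D.d_mul_ordAt' p x
  have hd : (0 : ℤ) < D.d p.1 := by exact_mod_cast D.d_pos p.1
  have he : (0 : ℤ) < D.e p := by exact_mod_cast D.e_pos p
  constructor
  · intro h1
    by_contra h2
    push Not at h2
    nlinarith
  · intro h1
    by_contra h2
    push Not at h2
    nlinarith

theorem ordAt_eq_zero_iff (p : D.Pt) (x : D.F) :
    D.ordAt p x = 0 ↔ D.ordT p.1 p.2.out (x : 𝔉) = 0 := by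
  have h := D.d_mul_ordAt' p x
  have hd : (0 : ℤ) < D.d p.1 := by exact_mod_cast D.d_pos p.1
  have he : (0 : ℤ) < D.e p := by exact_mod_cast D.e_pos p
  constructor
  · intro h1
    rw [h1, mul_zero] at h
    rcases mul_eq_zero.1 h.symm with h2 | h2
    · exact absurd h2 he.ne'
    · exact h2
  · intro h1
    rw [h1, mul_zero] at h
    rcases mul_eq_zero.1 h with h2 | h2
    · exact absurd h2 hd.ne'
    · exact h2

theorem ordAux_coe_ne_zero {x : D.F} (hx : x ≠ 0) : (x : 𝔉) ≠ 0 := fun h => hx (Subtype.ext h)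

theorem ordAt_mul (p : D.Pt) {x y : D.F} (hx : x ≠ 0) (hy : y ≠ 0) :
    D.ordAt p (x * y) = D.ordAt p x + D.ordAt p y := by
  have hd : (0 : ℤ) < D.d p.1 := by exact_mod_cast D.d_pos p.1
  have h1 := D.d_mul_ordAt' p x
  have h2 := D.d_mul_ordAt' p y
  have h3 := D.d_mul_ordAt' p (x * y)
  have h4 : D.ordT p.1 p.2.out ((x * y : D.F) : 𝔉)
      = D.ordT p.1 p.2.out (x : 𝔉) + D.ordT p.1 p.2.out (y : 𝔉) := by
    rw [ordT_def, ordT_def, ordT_def, MulMemClass.coe_mul, map_mul, map_mul]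
    exact HahnSeries.order_mul (D.T_ρ_ne_zero _ _ (D.ordAux_coe_ne_zero hx))
      (D.T_ρ_ne_zero _ _ (D.ordAux_coe_ne_zero hy))
  rw [h4] at h3
  apply mul_left_cancel₀ hd.ne'
  rw [h3, mul_add, mul_add, h1, h2]

set_option linter.unusedVariables false in
theorem ordAt_add (p : D.Pt) {x y : D.F} (hx : x ≠ 0) (hy : y ≠ 0) (hxy : x + y ≠ 0) :
    min (D.ordAt p x) (D.ordAt p y) ≤ D.ordAt p (x + y) := by
  have hd : (0 : ℤ) < D.d p.1 := by exact_mod_cast D.d_pos p.1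
  have he : (0 : ℤ) < D.e p := by exact_mod_cast D.e_pos p
  have h1 := D.d_mul_ordAt' p x
  have h2 := D.d_mul_ordAt' p y
  have h3 := D.d_mul_ordAt' p (x + y)
  have h4 : min (D.ordT p.1 p.2.out (x : 𝔉)) (D.ordT p.1 p.2.out (y : 𝔉))
      ≤ D.ordT p.1 p.2.out ((x + y : D.F) : 𝔉) := by
    rw [ordT_def, ordT_def, ordT_def, AddMemClass.coe_add, map_add, map_add]
    apply HahnSeries.min_order_le_order_add
    rw [← map_add, ← map_add, ← AddMemClass.coe_add]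
    exact D.T_ρ_ne_zero _ _ (D.ordAux_coe_ne_zero hxy)
  rcases min_le_iff.1 h4 with h5 | h5
  · refine min_le_iff.2 (Or.inl ?_)
    by_contra h6
    push Not at h6
    nlinarith
  · refine min_le_iff.2 (Or.inr ?_)
    by_contra h6
    push Not at h6
    nlinarith

theorem ordAux_T_ρ_algebraMap (P : OnePoint K) (γ : Γ) (c : K) :
    D.T P (D.ρ γ (algebraMap K 𝔉 c)) = HahnSeries.C c := by
  rw [AlgEquiv.commutes, AlgHom.commutes, ordAux_algebraMap_eq_C]

set_option linter.unusedVariables false in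
theorem ordAt_algebraMap (p : D.Pt) {c : K} (hc : c ≠ 0) :
    D.ordAt p (algebraMap K D.F c) = 0 := by
  rw [ordAt_eq_zero_iff, ordT_def]
  have : ((algebraMap K D.F c : D.F) : 𝔉) = algebraMap K 𝔉 c := rfl
  rw [this, ordAux_T_ρ_algebraMap, HahnSeries.order_C]

set_option linter.unusedVariables false in
theorem ordAt_exists_residue (p : D.Pt) {x : D.F} (hx : x ≠ 0) (h : 0 ≤ D.ordAt p x) :
    ∃ c : K, x = algebraMap K D.F c ∨ 0 < D.ordAt p (x - algebraMap K D.F c) := by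
  refine ⟨(D.T p.1 (D.ρ p.2.out⁻¹ (x : 𝔉))).coeff 0, ?_⟩
  by_cases hxc : x = algebraMap K D.F ((D.T p.1 (D.ρ p.2.out⁻¹ (x : 𝔉))).coeff 0)
  · exact Or.inl hxc
  · right
    have hne := D.T_ρ_ne_zero p.1 p.2.out⁻¹ (D.ordAux_coe_ne_zero (sub_ne_zero.2 hxc))
    have h' := (D.ordAt_nonneg_iff p x).1 h
    refine (D.ordAt_pos_iff p _).2 ?_
    rw [ordT_def] at h' ⊢
    have e1 : ∀ c : K, D.T p.1 (D.ρ p.2.out⁻¹ ((x - algebraMap K D.F c : D.F) : 𝔉))
        = D.T p.1 (D.ρ p.2.out⁻¹ (x : 𝔉)) - HahnSeries.C c := by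
      intro c
      have : ((x - algebraMap K D.F c : D.F) : 𝔉) = (x : 𝔉) - algebraMap K 𝔉 c := rfl
      rw [this, map_sub, map_sub, ordAux_T_ρ_algebraMap]
    rw [e1] at hne ⊢
    exact ordAux_order_sub_C_pos _ h' hne

end CoverDatum

end Fermat.Agent.CoverL
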