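import Fermat.Agent.Cover.LaurentPS
import Fermat.Agent.Cover.Rational

/-!
# Cover package: the raw residue functional `rawRes P z = Res_w (T P z · d(T P j))` and the
residue theorem on the `j`-line
-/

set_option autoImplicit false

open scoped IntermediateField

namespace Fermat.Agent.CoverL

namespace CoverDatum

variable {K : Type*} [Field K] {𝔉 : Type*} [Field 𝔉] [Algebra K 𝔉] {Γ : Type*} [Group Γ]
  (D : CoverDatum K 𝔉 Γ)

/-- the residue at the chosen point above `P` of the differential `z dj`. -/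
noncomputable def rawRes (P : OnePoint K) : 𝔉 →ₗ[K] K where
  toFun z := lres (D.T P z * lderiv (D.T P D.j))
  map_add' := by
    intro x y
    rw [map_add, add_mul, lres_add]
  map_smul' := by
    intro c x
    rw [Algebra.smul_def, map_mul, AlgHom.commutes, LaurentSeries.algebraMap_apply, mul_assoc,
      lres_C_mul, RingHom.id_apply, smul_eq_mul]

theorem rawRes_apply (P : OnePoint K) (z : 𝔉) :
    D.rawRes P z = lres (D.T P z * lderiv (D.T P D.j)) := rfl

/-- `T P (ρ g z)` is the rescaling of `T P z` by `χ P g`, for `g ∈ G P` -/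
theorem T_ρ_eq_lrescale (P : OnePoint K) (g : Γ) (hg : g ∈ D.G P) (z : 𝔉) :
    D.T P (D.ρ g z) = lrescale (D.χ P g) (D.T P z) := by
  ext n
  rw [D.T_ρ P g hg, coeff_lrescale]

/-- the raw residue is invariant under the stabilizer `G P` -/
theorem rawRes_ρ (P : OnePoint K) (g : Γ) (hg : g ∈ D.G P) (z : 𝔉) :
    D.rawRes P (D.ρ g z) = D.rawRes P z := by
  have hj : D.T P D.j = lrescale (D.χ P g) (D.T P D.j) := by
    conv_lhs => rw [← D.ρ_j g]
    exact D.T_ρ_eq_lrescale P g hg D.j
  have h2 : lderiv (D.T P D.j)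
      = HahnSeries.C ((D.χ P g : Kˣ) : K) * lrescale (D.χ P g) (lderiv (D.T P D.j)) := by
    conv_lhs => rw [hj]
    rw [lderiv_lrescale, HahnSeries.C_mul_eq_smul]
  rw [rawRes_apply, rawRes_apply, D.T_ρ_eq_lrescale P g hg]
  conv_lhs => rw [h2, mul_left_comm, ← map_mul, lres_C_mul, lres_lrescale]
  rw [← mul_assoc, ← Units.val_mul, mul_inv_cancel, Units.val_one, one_mul]

/-- the expansion of `j - a` differs from the one of `j` by a constant -/
theorem T_j_sub_eq (P : OnePoint K) (a : K) :
    D.T P (D.j - algebraMap K 𝔉 a) = D.T P D.j - HahnSeries.C a := by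
  rw [map_sub, AlgHom.commutes, LaurentSeries.algebraMap_apply]

/-- the derivative of the expansion of `j - a` is the one of `j` -/
theorem lderiv_T_j_sub (P : OnePoint K) (a : K) :
    lderiv (D.T P (D.j - algebraMap K 𝔉 a)) = lderiv (D.T P D.j) := by
  rw [map_sub, lderiv_sub, AlgHom.commutes, lderiv_algebraMap, sub_zero]

theorem T_j_sub_ne_zero (P : OnePoint K) (a : K) : D.T P (D.j - algebraMap K 𝔉 a) ≠ 0 :=
  (map_ne_zero_iff _ (D.T_injective P)).mpr (D.j_sub_ne_zero a)

/-- the expansion of `(j - a)⁻¹ ^ k` as an integer power -/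
theorem T_inv_pow (P : OnePoint K) (a : K) (k : ℕ) :
    D.T P ((D.j - algebraMap K 𝔉 a)⁻¹ ^ k) = D.T P (D.j - algebraMap K 𝔉 a) ^ (-(k : ℤ)) := by
  rw [map_pow, map_inv₀, zpow_neg, zpow_natCast, inv_pow]

/-- at a finite point the expansion of `j` is a power series -/
theorem isPS_T_j_coe (c : K) : IsPS (D.T (c : OnePoint K) D.j) := by
  have h : D.T (c : OnePoint K) D.j
      = D.T (c : OnePoint K) (D.j - algebraMap K 𝔉 c) + HahnSeries.C c := by
    rw [D.T_j_sub_eq, sub_add_cancel]
  rw [h]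
  refine IsPS.add (isPS_of_order_nonneg ?_) (isPS_C c)
  rw [D.order_T_j_sub]
  exact Int.natCast_nonneg _

section CharZero

variable [CharZero K]

theorem order_lderiv_T_j_coe (c : K) :
    (lderiv (D.T (c : OnePoint K) D.j)).order = (D.d (c : OnePoint K) : ℤ) - 1 := by
  have h2 := D.order_T_j_sub c
  rw [D.T_j_sub_eq] at h2
  rw [order_lderiv_of_sub_C c (by rw [h2]; exact_mod_cast D.d_pos _), h2]

theorem order_lderiv_T_j_infty :
    (lderiv (D.T OnePoint.infty D.j)).order = -(D.d OnePoint.infty : ℤ) - 1 := by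
  have h := D.d_pos OnePoint.infty
  rw [order_lderiv (by rw [D.order_T_j_infty]; omega), D.order_T_j_infty]

theorem rawRes_eq_zero_coe (c : K) (z : 𝔉)
    (h : -(D.d (c : OnePoint K) : ℤ) < (D.T (c : OnePoint K) z).order) :
    D.rawRes (c : OnePoint K) z = 0 := by
  rw [rawRes_apply]
  apply lres_mul_eq_zero_of_lt
  rw [D.order_lderiv_T_j_coe]
  omega

/-- the leading coefficient of the derivative of the expansion of `j` at a finite point -/
theorem coeff_lderiv_T_j_coe_ne_zero (c : K) :
    (lderiv (D.T (c : OnePoint K) D.j)).coeff (lderiv (D.T (c : OnePoint K) D.j)).order ≠ 0 := by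
  have h := coeff_lderiv_order (D.T (c : OnePoint K) (D.j - algebraMap K 𝔉 c))
  rw [D.lderiv_T_j_sub, D.order_T_j_sub] at h
  rw [D.order_lderiv_T_j_coe, h]
  refine mul_ne_zero (by exact_mod_cast (D.d_pos _).ne') ?_
  have h' := HahnSeries.coeff_order_eq_zero.not.mpr (D.T_j_sub_ne_zero (c : OnePoint K) c)
  rwa [D.order_T_j_sub] at h'

/-- the leading coefficient of the derivative of the expansion of `j` at infinity -/
theorem coeff_lderiv_T_j_infty_ne_zero :
    (lderiv (D.T OnePoint.infty D.j)).coeff (lderiv (D.T OnePoint.infty D.j)).order ≠ 0 := by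
  have hd := D.d_pos OnePoint.infty
  have h := coeff_lderiv_order (D.T OnePoint.infty D.j)
  rw [D.order_T_j_infty] at h
  rw [D.order_lderiv_T_j_infty, h]
  have h0 : D.T OnePoint.infty D.j ≠ 0 := by
    intro h0
    have h1 := D.order_T_j_infty
    rw [h0, HahnSeries.order_zero] at h1
    omega
  have h' := HahnSeries.coeff_order_eq_zero.not.mpr h0
  rw [D.order_T_j_infty] at h'
  refine mul_ne_zero ?_ h'
  have : (-(D.d OnePoint.infty : ℤ)) ≠ 0 := by omega
  exact_mod_cast this

theorem rawRes_ne_zero_coe (c : K) (z : 𝔉) (hz : z ≠ 0)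
    (h : (D.T (c : OnePoint K) z).order = -(D.d (c : OnePoint K) : ℤ)) :
    D.rawRes (c : OnePoint K) z ≠ 0 := by
  rw [rawRes_apply, lres_mul_of_order_add_eq (by rw [h, D.order_lderiv_T_j_coe]; ring)]
  exact mul_ne_zero
    (HahnSeries.coeff_order_eq_zero.not.mpr ((map_ne_zero_iff _ (D.T_injective _)).mpr hz))
    (D.coeff_lderiv_T_j_coe_ne_zero c)

theorem rawRes_eq_zero_infty (z : 𝔉)
    (h : (D.d OnePoint.infty : ℤ) < (D.T OnePoint.infty z).order) :
    D.rawRes OnePoint.infty z = 0 := by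
  rw [rawRes_apply]
  apply lres_mul_eq_zero_of_lt
  rw [D.order_lderiv_T_j_infty]
  omega

theorem rawRes_ne_zero_infty (z : 𝔉) (hz : z ≠ 0)
    (h : (D.T OnePoint.infty z).order = (D.d OnePoint.infty : ℤ)) :
    D.rawRes OnePoint.infty z ≠ 0 := by
  rw [rawRes_apply, lres_mul_of_order_add_eq (by rw [h, D.order_lderiv_T_j_infty]; ring)]
  exact mul_ne_zero
    (HahnSeries.coeff_order_eq_zero.not.mpr ((map_ne_zero_iff _ (D.T_injective _)).mpr hz))
    D.coeff_lderiv_T_j_infty_ne_zero

/-- residues of `j ^ n dj` -/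
theorem rawRes_j_pow (P : OnePoint K) (n : ℕ) : D.rawRes P (D.j ^ n) = 0 := by
  rw [rawRes_apply, map_pow]
  induction P using OnePoint.rec with
  | infty =>
    have hd := D.d_pos OnePoint.infty
    have h0 : D.T OnePoint.infty D.j ≠ 0 := by
      intro h0
      have h1 := D.order_T_j_infty
      rw [h0, HahnSeries.order_zero] at h1
      omega
    rw [← zpow_natCast]
    exact lres_zpow_mul_lderiv h0 (n : ℤ) (by omega)
  | coe c =>
    exact (((D.isPS_T_j_coe c).pow n).mul (D.isPS_T_j_coe c).lderiv).lres_eq_zero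

set_option linter.unusedSectionVars false in
/-- residues of `(j - a)⁻ᵏ dj`: `d` at `a` and `-d` at `∞` if `k = 1`, zero otherwise -/
theorem rawRes_inv_pow_coe_self (a : K) :
    D.rawRes (a : OnePoint K) ((D.j - algebraMap K 𝔉 a)⁻¹) = (D.d (a : OnePoint K) : K) := by
  rw [rawRes_apply, map_inv₀, ← D.lderiv_T_j_sub _ a,
    lres_inv_mul_lderiv (D.T_j_sub_ne_zero _ a), D.order_T_j_sub, Int.cast_natCast]

set_option linter.unusedSectionVars false in
theorem rawRes_inv_pow_infty (a : K) :
    D.rawRes OnePoint.infty ((D.j - algebraMap K 𝔉 a)⁻¹) = -(D.d OnePoint.infty : K) := by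
  rw [rawRes_apply, map_inv₀, ← D.lderiv_T_j_sub _ a,
    lres_inv_mul_lderiv (D.T_j_sub_ne_zero _ a), D.order_T_infty_j_sub, Int.cast_neg,
    Int.cast_natCast]

set_option linter.unusedSectionVars false in
theorem rawRes_inv_pow_coe_of_ne (a c : K) (h : c ≠ a) (k : ℕ) :
    D.rawRes (c : OnePoint K) ((D.j - algebraMap K 𝔉 a)⁻¹ ^ k) = 0 := by
  have hV : IsPS (D.T (c : OnePoint K) (D.j - algebraMap K 𝔉 a)) :=
    isPS_of_order_nonneg (D.order_T_j_sub_of_ne a c h).ge
  have hV' : IsPS (D.T (c : OnePoint K) (D.j - algebraMap K 𝔉 a))⁻¹ :=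
    hV.inv (by rw [D.coeff_zero_T_j_sub]; exact sub_ne_zero.mpr h)
  rw [rawRes_apply, map_pow, map_inv₀, ← D.lderiv_T_j_sub _ a]
  exact ((hV'.pow k).mul hV.lderiv).lres_eq_zero

theorem rawRes_inv_pow_of_one_lt (P : OnePoint K) (a : K) (k : ℕ) (hk : 1 < k) :
    D.rawRes P ((D.j - algebraMap K 𝔉 a)⁻¹ ^ k) = 0 := by
  rw [rawRes_apply, D.T_inv_pow, ← D.lderiv_T_j_sub P a]
  exact lres_zpow_mul_lderiv (D.T_j_sub_ne_zero P a) _ (by omega)

variable [IsAlgClosed K]

/-- **the residue theorem on the `j`-line**: for `Y ∈ K(j)` the normalized residues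
`Res_P (Y dj) = rawRes P Y / d P` are almost all zero and add up to zero. -/
theorem finsum_rawRes_adjoin {Y : 𝔉} (hY : Y ∈ K⟮D.j⟯) :
    (Function.support fun P : OnePoint K => ((D.d P : K))⁻¹ * D.rawRes P Y).Finite ∧
      ∑ᶠ P : OnePoint K, ((D.d P : K))⁻¹ * D.rawRes P Y = 0 := by
  classical
  refine D.adjoin_j_induction
    (fun Y => (Function.support fun P : OnePoint K => ((D.d P : K))⁻¹ * D.rawRes P Y).Finite ∧
      ∑ᶠ P : OnePoint K, ((D.d P : K))⁻¹ * D.rawRes P Y = 0) ?_ ?_ ?_ ?_ hY
  · rintro a b ⟨ha, ha'⟩ ⟨hb, hb'⟩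
    have heq : (fun P : OnePoint K => ((D.d P : K))⁻¹ * D.rawRes P (a + b))
        = fun P => ((D.d P : K))⁻¹ * D.rawRes P a + ((D.d P : K))⁻¹ * D.rawRes P b := by
      funext P
      rw [map_add, mul_add]
    simp only [heq]
    refine ⟨(ha.union hb).subset (Function.support_add _ _), ?_⟩
    rw [finsum_add_distrib ha hb, ha', hb', add_zero]
  · rintro c a ⟨ha, ha'⟩
    have heq : (fun P : OnePoint K => ((D.d P : K))⁻¹ * D.rawRes P (c • a))
        = fun P => c * (((D.d P : K))⁻¹ * D.rawRes P a) := by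
      funext P
      rw [map_smul, smul_eq_mul, mul_left_comm]
    simp only [heq]
    refine ⟨ha.subset ?_, ?_⟩
    · intro P hP
      rw [Function.mem_support] at hP ⊢
      exact right_ne_zero_of_mul hP
    · rw [← mul_finsum, ha', mul_zero]
  · intro n
    simp only [D.rawRes_j_pow, mul_zero, Function.support_fun_zero, Set.finite_empty, finsum_zero,
      and_self]
  · intro a k hk
    rcases Nat.lt_or_ge 1 k with hk1 | hk1
    · simp only [D.rawRes_inv_pow_of_one_lt _ a k hk1, mul_zero, Function.support_fun_zero,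
        Set.finite_empty, finsum_zero, and_self]
    · obtain rfl : k = 1 := le_antisymm hk1 hk
      rw [pow_one]
      have hsub : (Function.support fun P : OnePoint K =>
          ((D.d P : K))⁻¹ * D.rawRes P ((D.j - algebraMap K 𝔉 a)⁻¹))
          ⊆ (({(a : OnePoint K), OnePoint.infty} : Finset (OnePoint K)) : Set (OnePoint K)) := by
        intro P hP
        rw [Function.mem_support] at hP
        induction P using OnePoint.rec with
        | infty => simp
        | coe c =>
          by_cases hc : c = a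
          · simp [hc]
          · exfalso
            apply hP
            have := D.rawRes_inv_pow_coe_of_ne a c hc 1
            rw [pow_one] at this
            rw [this, mul_zero]
      refine ⟨(Finset.finite_toSet _).subset hsub, ?_⟩
      rw [finsum_eq_sum_of_support_subset _ hsub, Finset.sum_pair (OnePoint.coe_ne_infty a),
        D.rawRes_inv_pow_coe_self, D.rawRes_inv_pow_infty, mul_neg,
        inv_mul_cancel₀ (Nat.cast_ne_zero.mpr (D.d_pos _).ne'),
        inv_mul_cancel₀ (Nat.cast_ne_zero.mpr (D.d_pos _).ne'), add_neg_cancel]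

end CharZero

end CoverDatum

end Fermat.Agent.CoverL
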